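/-
T1B brick N-COH (helper30), file 7: the CONCRETE nodal model of Program N
(`ES/N34/ModelDefs9`: `R = AK A K`, `F = FK (M' q) K`, `O1` the Gauss valuation ring at `∞`,
`O2 = O1.comap W_{N'}` the one at the cusp `0`): both `ResAlgClosed` hypotheses hold, so the
Čech datum and `H⁰(O_{X_{R'}}) = R'` are UNCONDITIONAL consequences of `NodalNumData`
(`ES/P36/ModelQAt4.nodalNumData_at`).
-/
import Mathlib
import Fermat.Agent.ES.N34.ModelDefs9
import Fermat.Agent.T1B.NodalCoh30.NumData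

set_option autoImplicit false
set_option linter.unusedSectionVars false

noncomputable section

universe u

namespace Fermat.Agent.T1B.NodalCoh30

open HahnSeries Fermat.Agent.RED.Interface4 Fermat.Agent.RED.PUR.GaussGen8
  Fermat.Agent.ES.N34.ModelDefs9 Fermat.Agent.T1.ModelCoh30
  Fermat.Agent.ES.N34.NumData13 Fermat.Agent.T1.Coh60 Fermat.Agent.T1B.NodalFacts23
  Fermat.Agent.Jac Fermat.Agent.Jac.BaseChange75
open scoped Fermat.Agent.Jac.BaseChange75

variable {A : ValuationSubring Qbar} {K : IntermediateField ℚ Qbar} (M' q : ℕ) [NeZero M']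
  [NeZero q]

attribute [local instance] Fermat.Agent.RED.NumInst4.isScalarTower_OE

theorem resAlgClosed_O1 {π : ↥(AK A K)} (hπ : IsUnif (AK A K) π)
    (hE : FK (M' * q) K ≤ fracField (AK A K)) :
    ResAlgClosed (R := ↥(AK A K)) (F := ↥(FK (M' * q) K)) π (O1 M' q hπ hE) :=
  resAlgClosed_gaussVS' hπ hE

theorem resAlgClosed_O2 {π : ↥(AK A K)} (hπ : IsUnif (AK A K) π)
    (hE : FK (M' * q) K ≤ fracField (AK A K)) :
    ResAlgClosed (R := ↥(AK A K)) (F := ↥(FK (M' * q) K)) π (O2 M' q hπ hE) := by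
  refine resAlgClosed_comap_involution (wN K M' q).toRingHom (wN_wN K M' q) ?_
    (resAlgClosed_O1 M' q hπ hE)
  intro r
  have h1 : algebraMap ↥(AK A K) ↥(FK (M' * q) K) r =
      algebraMap ↥K ↥(FK (M' * q) K) (algebraMap ↥(AK A K) ↥K r) :=
    IsScalarTower.algebraMap_apply _ _ _ r
  rw [h1]
  exact (wN K M' q).commutes _

variable {M' q}

/-- **The Čech datum of Program N's concrete nodal model** (no hypothesis beyond `NodalNumData`). -/
def concreteCechData {π : ↥(AK A K)} (hπ : IsUnif (AK A K) π)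
    (hE : FK (M' * q) K ≤ fracField (AK A K)) {t : ↥(FK (M' * q) K)}
    {B0 B1 : Subalgebra ↥(AK A K) ↥(FK (M' * q) K)}
    (D : NodalNumData ↥(AK A K) ↥K ↥(FK (M' * q) K) π t B0 B1 (O1 M' q hπ hE) (O2 M' q hπ hE)) :
    Fermat.Agent.T1.CechFormal70.CechData ↥(AK A K) ↥B0 ↥B1 ↥(B0 ⊔ B1)
      ((cohDatum_of_numData D).genus
        (specialH0_of_numData D (resAlgClosed_O1 M' q hπ hE) (resAlgClosed_O2 M' q hπ hE))) :=
  cechData_of_numData D (resAlgClosed_O1 M' q hπ hE) (resAlgClosed_O2 M' q hπ hE)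

/-- **`H⁰(O_{X_{R'}}) = R'`** for the hub chart of Program N's concrete nodal model. -/
theorem concrete_h0Const {π : ↥(AK A K)} (hπ : IsUnif (AK A K) π)
    (hE : FK (M' * q) K ≤ fracField (AK A K)) {t : ↥(FK (M' * q) K)}
    {B0 B1 : Subalgebra ↥(AK A K) ↥(FK (M' * q) K)}
    (D : NodalNumData ↥(AK A K) ↥K ↥(FK (M' * q) K) π t B0 B1 (O1 M' q hπ hE) (O2 M' q hπ hE))
    (R' : Type) [CommRing R'] [Algebra ↥(AK A K) R'] :
    letI := algebra0 B0 B1
    letI := algebra1 B0 B1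
    haveI := isScalarTower0 B0 B1
    haveI := isScalarTower1 B0 B1
    Fermat.Agent.T1.Red68.H0Const ((nodalChart D.model).baseChange R') :=
  h0Const_of_numData D (resAlgClosed_O1 M' q hπ hE) (resAlgClosed_O2 M' q hπ hE) R'

end Fermat.Agent.T1B.NodalCoh30
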