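/-
T1B brick N-COH (helper30), file 1: coherent cohomology of a GENERAL two-chart datum
(smooth or nodal) over a DVR, stated once.

`CohDatum R F π t B0 B1` lists the elementary facts used: `R → F` injective, `R` a DVR with
uniformiser `π` (in the `dvrR` form of `CoreIface24.TwoChartModel`), `B0 ∋ t`, `B1 ∋ t⁻¹`
subalgebras of the field `F` with `B0[1/t] = B1[t]`, `B0` finite over `R[t]`.
`GenericH0` : `B0 ∩ B1 = R`;  `SpecialH0` : `H⁰` of the special fibre is `R/π` (elementwise).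

Output: `B01 := B0 ⊔ B1` is `B0[1/t] = B1[t]`, flat; `H¹ = B01/(B0+B1)` is free of finite rank
with explicit representatives; `cechData : CechFormal70.CechData R ↥B0 ↥B1 ↥(B0 ⊔ B1) g`.
The smooth instance is `T1/ModelCoh30`; the nodal instance is `Nodal.lean`.
-/
import Mathlib
import Fermat.Agent.RED.CORE.CechConnected14
import Fermat.Agent.T1.CechFormal70.BaseChange
import Fermat.Agent.T1.ModelCoh30.H1

set_option autoImplicit false
set_option linter.unusedSectionVars false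
set_option linter.style.haveILetI false

namespace Fermat.Agent.T1B.NodalCoh30

open Polynomial Fermat.Agent.T1.ModelCoh30

variable {R F : Type*} [CommRing R] [Field F] [Algebra R F]

/-- The part of a two-chart model over a DVR used by the coherent cohomology computation. -/
structure CohDatum (π : R) (t : F) (B0 B1 : Subalgebra R F) : Prop where
  inj : Function.Injective (algebraMap R F)
  /-- `π` is a uniformiser of `R` -/
  dvrR : ∀ r : R, r ≠ 0 → ∃ (k : ℕ) (v : Rˣ), r = π ^ k * v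
  pi_ne : π ≠ 0
  t_ne : t ≠ 0
  t_mem : t ∈ B0
  tinv_mem : t⁻¹ ∈ B1
  /-- `B0` is a finite `R[t]`-module -/
  fin0 : ∃ (r : ℕ) (e : Fin r → F), (∀ i, e i ∈ B0) ∧
    ∀ x ∈ B0, ∃ P : Fin r → R[X], x = ∑ i, aeval t (P i) * e i
  /-- overlap: `B0[1/t] = B1[t]` -/
  ov0 : ∀ x ∈ B1, ∃ k : ℕ, t ^ k * x ∈ B0
  ov1 : ∀ x ∈ B0, ∃ k : ℕ, t⁻¹ ^ k * x ∈ B1

/-- `H⁰` of the generic fibre: `B0 ∩ B1 = R`. -/
def GenericH0 (B0 B1 : Subalgebra R F) : Prop :=
  ∀ x : F, x ∈ B0 → x ∈ B1 → ∃ r : R, algebraMap R F r = x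

/-- `H⁰` of the special fibre is `R/π`: a pair `x0 ∈ B0`, `x1 ∈ B1` with `x0 + x1 ∈ π B01` is
congruent modulo `π` to a constant pair `(r, -r)`. -/
def SpecialH0 (π : R) (B0 B1 : Subalgebra R F) : Prop :=
  ∀ x0 ∈ B0, ∀ x1 ∈ B1, ∀ y ∈ B0 ⊔ B1, x0 + x1 = algebraMap R F π * y →
    ∃ r : R, (∃ z0 ∈ B0, x0 - algebraMap R F r = algebraMap R F π * z0) ∧
      (∃ z1 ∈ B1, x1 + algebraMap R F r = algebraMap R F π * z1)

variable {π : R} {t : F} {B0 B1 : Subalgebra R F}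

namespace CohDatum

theorem isDomain (D : CohDatum π t B0 B1) : IsDomain R :=
  Function.Injective.isDomain (algebraMap R F) D.inj

theorem isPrincipalIdealRing (D : CohDatum π t B0 B1) : IsPrincipalIdealRing R := by
  classical
  haveI := D.isDomain
  refine ⟨fun I => ?_⟩
  by_cases hI : I = ⊥
  · subst hI
    exact ⟨⟨0, by simp⟩⟩
  · have hex : ∃ k : ℕ, π ^ k ∈ I := by
      obtain ⟨r, hrI, hr0⟩ := Submodule.exists_mem_ne_zero_of_ne_bot hI
      obtain ⟨k, v, hv⟩ := D.dvrR r hr0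
      refine ⟨k, ?_⟩
      have : π ^ k = r * ((v⁻¹ : Rˣ) : R) := by
        rw [hv, mul_assoc, Units.mul_inv, mul_one]
      rw [this]
      exact I.mul_mem_right _ hrI
    refine ⟨⟨π ^ Nat.find hex, ?_⟩⟩
    apply le_antisymm
    · intro s hs
      by_cases hs0 : s = 0
      · subst hs0
        exact Submodule.zero_mem _
      obtain ⟨l, v, hv⟩ := D.dvrR s hs0
      have hl : π ^ l ∈ I := by
        have : π ^ l = s * ((v⁻¹ : Rˣ) : R) := by
          rw [hv, mul_assoc, Units.mul_inv, mul_one]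
        rw [this]
        exact I.mul_mem_right _ hs
      have hle : Nat.find hex ≤ l := Nat.find_min' hex hl
      obtain ⟨d, rfl⟩ := Nat.exists_eq_add_of_le hle
      rw [hv, pow_add, mul_assoc]
      exact Ideal.mul_mem_right _ _ (Submodule.mem_span_singleton_self _)
    · rw [Submodule.span_singleton_le_iff_mem]
      exact Nat.find_spec hex

theorem tinv_pow_mul_t_pow (D : CohDatum π t B0 B1) (k : ℕ) : t⁻¹ ^ k * t ^ k = 1 := by
  rw [← mul_pow, inv_mul_cancel₀ D.t_ne, one_pow]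

theorem mem_sup_iff0 (D : CohDatum π t B0 B1) {x : F} :
    x ∈ B0 ⊔ B1 ↔ ∃ k : ℕ, t ^ k * x ∈ B0 := by
  constructor
  · intro hx
    have hle : B0 ⊔ B1 ≤ awaySub t B0 D.t_mem := by
      apply sup_le
      · intro y hy
        exact ⟨0, by simpa using hy⟩
      · intro y hy
        exact D.ov0 y hy
    exact hle hx
  · rintro ⟨k, hk⟩
    have hx : x = t⁻¹ ^ k * (t ^ k * x) := by
      rw [← mul_assoc, D.tinv_pow_mul_t_pow, one_mul]
    rw [hx]
    exact (B0 ⊔ B1).mul_mem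
      ((B0 ⊔ B1).pow_mem ((le_sup_right : B1 ≤ B0 ⊔ B1) D.tinv_mem) k)
      ((le_sup_left : B0 ≤ B0 ⊔ B1) hk)

theorem mem_sup_iff1 (D : CohDatum π t B0 B1) {x : F} :
    x ∈ B0 ⊔ B1 ↔ ∃ k : ℕ, t⁻¹ ^ k * x ∈ B1 := by
  constructor
  · intro hx
    have hle : B0 ⊔ B1 ≤ awaySub t⁻¹ B1 D.tinv_mem := by
      apply sup_le
      · intro y hy
        exact D.ov1 y hy
      · intro y hy
        exact ⟨0, by simpa using hy⟩
    exact hle hx
  · rintro ⟨k, hk⟩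
    have hx : x = t ^ k * (t⁻¹ ^ k * x) := by
      rw [← mul_assoc, mul_comm (t ^ k), D.tinv_pow_mul_t_pow, one_mul]
    rw [hx]
    exact (B0 ⊔ B1).mul_mem
      ((B0 ⊔ B1).pow_mem ((le_sup_left : B0 ≤ B0 ⊔ B1) D.t_mem) k)
      ((le_sup_right : B1 ≤ B0 ⊔ B1) hk)

theorem isTorsionFree_field (D : CohDatum π t B0 B1) : Module.IsTorsionFree R F := by
  refine ⟨fun r hr x y hxy => ?_⟩
  have hr0 : r ≠ 0 := by
    haveI := D.isDomain
    exact hr.ne_zero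
  have hrF : algebraMap R F r ≠ 0 := fun h => hr0 (D.inj (by rw [h, map_zero]))
  simp only [Algebra.smul_def] at hxy
  exact mul_left_cancel₀ hrF hxy

theorem flat_subalgebra (D : CohDatum π t B0 B1) (B : Subalgebra R F) : Module.Flat R ↥B := by
  haveI := D.isDomain
  haveI := D.isPrincipalIdealRing
  haveI := D.isTorsionFree_field
  haveI : Module.IsTorsionFree R ↥B :=
    Function.Injective.moduleIsTorsionFree (fun x : ↥B => (x : F)) Subtype.val_injective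
      (fun _ _ => rfl)
  infer_instance

theorem away0 (D : CohDatum π t B0 B1) :
    @IsLocalization.Away ↥B0 _ ⟨t, D.t_mem⟩ ↥(B0 ⊔ B1) _ (ρ0 B0 B1).toRingHom.toAlgebra :=
  away_of_le le_sup_left D.t_mem D.t_ne ((le_sup_right : B1 ≤ B0 ⊔ B1) D.tinv_mem)
    (fun _ hx => D.mem_sup_iff0.1 hx)

theorem away1 (D : CohDatum π t B0 B1) :
    @IsLocalization.Away ↥B1 _ ⟨t⁻¹, D.tinv_mem⟩ ↥(B0 ⊔ B1) _ (ρ1 B0 B1).toRingHom.toAlgebra :=
  away_of_le le_sup_right D.tinv_mem (inv_ne_zero D.t_ne)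
    (by rw [inv_inv]; exact (le_sup_left : B0 ≤ B0 ⊔ B1) D.t_mem)
    (fun _ hx => D.mem_sup_iff1.1 hx)

/-! ### `H¹` -/

theorem exists_uniform_exponent (D : CohDatum π t B0 B1) {r : ℕ} (e : Fin r → F)
    (he : ∀ i, e i ∈ B0) : ∃ N : ℕ, ∀ i, t⁻¹ ^ N * e i ∈ B1 := by
  choose k hk using fun i => D.ov1 (e i) (he i)
  refine ⟨Finset.univ.sup k, fun i => ?_⟩
  have hle : k i ≤ Finset.univ.sup k := Finset.le_sup (Finset.mem_univ i)
  obtain ⟨d, hd⟩ := Nat.exists_eq_add_of_le hle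
  rw [hd, pow_add, mul_comm (t⁻¹ ^ k i), mul_assoc]
  exact B1.mul_mem (B1.pow_mem D.tinv_mem d) (hk i)

/-- `H¹` is finitely generated. -/
theorem h1_fg (D : CohDatum π t B0 B1) :
    ∃ (n : ℕ) (e : Fin n → F), (∀ i, e i ∈ B0 ⊔ B1) ∧
      ∀ y ∈ B0 ⊔ B1, ∃ c : Fin n → R, ∃ x0 ∈ B0, ∃ x1 ∈ B1,
        y = ∑ i, c i • e i + x0 + x1 := by
  obtain ⟨r, e, he, hgen⟩ := D.fin0
  obtain ⟨N, hN⟩ := D.exists_uniform_exponent e he
  have hspan := Fermat.Agent.RED.CORE.CechConnected14.cech_h1_span t t⁻¹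
    (mul_inv_cancel₀ D.t_ne) B0 B1 (B0 ⊔ B1) D.t_mem D.tinv_mem e he hgen
    (fun x hx => D.mem_sup_iff0.1 hx) N hN
  let v : Fin r × Fin N → F := fun p => t⁻¹ ^ (p.2 : ℕ) * e p.1
  let e' : Fin (r * N) → F := fun j => v (finProdFinEquiv.symm j)
  have hv : ∀ p, v p ∈ B0 ⊔ B1 := fun p =>
    (B0 ⊔ B1).mul_mem ((B0 ⊔ B1).pow_mem ((le_sup_right : B1 ≤ B0 ⊔ B1) D.tinv_mem) _)
      ((le_sup_left : B0 ≤ B0 ⊔ B1) (he p.1))
  refine ⟨r * N, e', fun j => hv _, fun y hy => ?_⟩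
  have hy' : y ∈ Submodule.span R (Set.range v) ⊔ sumSub B0 B1 := hspan hy
  obtain ⟨g, hg, z, hz, hgz⟩ := Submodule.mem_sup.1 hy'
  obtain ⟨c, hc⟩ := (Submodule.mem_span_range_iff_exists_fun R).1 hg
  obtain ⟨x0, hx0, x1, hx1, hx⟩ := mem_sumSub.1 hz
  refine ⟨fun j => c (finProdFinEquiv.symm j), x0, hx0, x1, hx1, ?_⟩
  have hsum : ∑ j : Fin (r * N), c (finProdFinEquiv.symm j) • e' j = g := by
    rw [← hc]
    exact Fintype.sum_equiv finProdFinEquiv.symm _ _ (fun _ => rfl)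
  rw [hsum, add_assoc, hx, hgz]

theorem finite_H1 (D : CohDatum π t B0 B1) : Module.Finite R (H1 B0 B1) := by
  obtain ⟨n, e, he, hgen⟩ := D.h1_fg
  let e' : Fin n → ↥(Subalgebra.toSubmodule (B0 ⊔ B1)) := fun i => ⟨e i, he i⟩
  let φ : (Fin n → R) →ₗ[R] H1 B0 B1 :=
    (Submodule.mkQ (bdry B0 B1)).comp (Fintype.linearCombination R e')
  refine Module.Finite.of_surjective φ ?_
  intro h
  obtain ⟨y, rfl⟩ := Submodule.Quotient.mk_surjective _ h
  obtain ⟨c, x0, hx0, x1, hx1, hy⟩ := hgen y y.2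
  refine ⟨c, ?_⟩
  show Submodule.Quotient.mk (Fintype.linearCombination R e' c) = Submodule.Quotient.mk y
  rw [eq_comm, ← sub_eq_zero, ← Submodule.Quotient.mk_sub, mk_eq_zero_iff]
  refine ⟨x0, hx0, x1, hx1, ?_⟩
  rw [Fintype.linearCombination_apply]
  simp only [Submodule.coe_sub, Submodule.coe_sum, Submodule.coe_smul, e']
  rw [hy]
  ring

theorem pi_ne_F (D : CohDatum π t B0 B1) : algebraMap R F π ≠ 0 := fun h =>
  D.pi_ne (D.inj (by rw [h, map_zero]))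

/-- `H¹` has no `π`-torsion when the special fibre has `H⁰ = R/π`. -/
theorem h1_pi_torsionFree (D : CohDatum π t B0 B1) (hs : SpecialH0 π B0 B1)
    {y : F} (hy : y ∈ B0 ⊔ B1)
    (h : ∃ x0 ∈ B0, ∃ x1 ∈ B1, algebraMap R F π * y = x0 + x1) :
    ∃ x0 ∈ B0, ∃ x1 ∈ B1, y = x0 + x1 := by
  obtain ⟨x0, hx0, x1, hx1, hxy⟩ := h
  obtain ⟨r, ⟨z0, hz0, h0⟩, ⟨z1, hz1, h1⟩⟩ := hs x0 hx0 x1 hx1 y hy hxy.symm
  refine ⟨z0, hz0, z1, hz1, ?_⟩
  apply mul_left_cancel₀ D.pi_ne_F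
  rw [hxy, mul_add, ← h0, ← h1]
  ring

theorem pi_smul_eq_zero_H1 (D : CohDatum π t B0 B1) (hs : SpecialH0 π B0 B1)
    (h : H1 B0 B1) (hπ : π • h = 0) : h = 0 := by
  obtain ⟨y, rfl⟩ := Submodule.Quotient.mk_surjective _ h
  rw [← Submodule.Quotient.mk_smul, mk_eq_zero_iff] at hπ
  rw [mk_eq_zero_iff]
  obtain ⟨x0, hx0, x1, hx1, hx⟩ := hπ
  obtain ⟨z0, hz0, z1, hz1, hz⟩ := D.h1_pi_torsionFree hs y.2
    ⟨x0, hx0, x1, hx1, by rw [hx, Submodule.coe_smul, Algebra.smul_def]⟩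
  exact ⟨z0, hz0, z1, hz1, hz.symm⟩

theorem isTorsionFree_H1 (D : CohDatum π t B0 B1) (hs : SpecialH0 π B0 B1) :
    Module.IsTorsionFree R (H1 B0 B1) := by
  haveI := D.isDomain
  have hpow : ∀ (k : ℕ) (h : H1 B0 B1), π ^ k • h = 0 → h = 0 := by
    intro k
    induction k with
    | zero => intro h hh; simpa using hh
    | succ k ih =>
      intro h hh
      rw [pow_succ, mul_smul] at hh
      exact D.pi_smul_eq_zero_H1 hs h (ih _ hh)
  refine ⟨fun r hr a b hab => ?_⟩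
  have hr0 : r ≠ 0 := hr.ne_zero
  obtain ⟨k, v, rfl⟩ := D.dvrR r hr0
  have h1 : (π ^ k * (v : R)) • (a - b) = 0 := by
    rw [smul_sub]
    exact sub_eq_zero.2 hab
  rw [mul_smul] at h1
  have h2 := hpow k _ h1
  have h3 : a - b = 0 := by
    have := congrArg (fun z => ((v⁻¹ : Rˣ) : R) • z) h2
    simpa [smul_smul] using this
  exact sub_eq_zero.1 h3

/-- representatives of a basis of `H¹ = B01/(B0+B1)`, elementwise in `F`. -/
theorem exists_h1_basis (D : CohDatum π t B0 B1) (hs : SpecialH0 π B0 B1) :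
    ∃ (g : ℕ) (b : Fin g → F), (∀ i, b i ∈ B0 ⊔ B1) ∧
      (∀ y ∈ B0 ⊔ B1, ∃ c : Fin g → R, ∃ x0 ∈ B0, ∃ x1 ∈ B1,
        y = ∑ i, c i • b i + x0 + x1) ∧
      (∀ c : Fin g → R, (∃ x0 ∈ B0, ∃ x1 ∈ B1, ∑ i, c i • b i + x0 + x1 = 0) →
        ∀ i, c i = 0) := by
  haveI := D.isDomain
  haveI := D.isPrincipalIdealRing
  haveI := D.finite_H1
  haveI := D.isTorsionFree_H1 hs
  obtain ⟨g, β⟩ :=
    (Module.basisOfFiniteTypeTorsionFree' : Σ n : ℕ, Module.Basis (Fin n) R (H1 B0 B1))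
  choose b' hb' using fun i => Submodule.Quotient.mk_surjective (bdry B0 B1) (β i)
  have hmk : ∀ c : Fin g → R,
      (Submodule.Quotient.mk (∑ i, c i • b' i) : H1 B0 B1) = ∑ i, c i • β i := by
    intro c
    rw [← Submodule.mkQ_apply, map_sum]
    refine Finset.sum_congr rfl fun i _ => ?_
    rw [map_smul, Submodule.mkQ_apply, hb']
  have hcoe : ∀ c : Fin g → R,
      ((∑ i, c i • b' i : ↥(Subalgebra.toSubmodule (B0 ⊔ B1))) : F) = ∑ i, c i • (b' i : F) := by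
    intro c
    simp only [Submodule.coe_sum, Submodule.coe_smul]
  refine ⟨g, fun i => (b' i : F), fun i => (b' i).2, ?_, ?_⟩
  · intro y hy
    let y' : ↥(Subalgebra.toSubmodule (B0 ⊔ B1)) := ⟨y, hy⟩
    let c : Fin g → R := fun i => β.repr (Submodule.Quotient.mk y') i
    have h1 : (Submodule.Quotient.mk (y' - ∑ i, c i • b' i) : H1 B0 B1) = 0 := by
      rw [Submodule.Quotient.mk_sub, hmk, sub_eq_zero]
      exact (β.sum_repr _).symm
    rw [mk_eq_zero_iff] at h1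
    obtain ⟨x0, hx0, x1, hx1, hx⟩ := h1
    refine ⟨c, x0, hx0, x1, hx1, ?_⟩
    rw [Submodule.coe_sub, hcoe] at hx
    rw [add_assoc, hx]
    show y = _ + (y - _)
    ring
  · rintro c ⟨x0, hx0, x1, hx1, hsum⟩
    have h1 : (Submodule.Quotient.mk (∑ i, c i • b' i) : H1 B0 B1) = 0 := by
      rw [mk_eq_zero_iff, hcoe]
      refine ⟨-x0, B0.neg_mem hx0, -x1, B1.neg_mem hx1, ?_⟩
      linear_combination -hsum
    rw [hmk] at h1
    exact Fintype.linearIndependent_iff.1 β.linearIndependent c h1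

/-- the same in the shape of the `span`/`indep` fields of `CechFormal70.CechData`. -/
theorem exists_cech_basis (D : CohDatum π t B0 B1) (hs : SpecialH0 π B0 B1) :
    ∃ (g : ℕ) (b : Fin g → ↥(B0 ⊔ B1)),
      (∀ y : ↥(B0 ⊔ B1), ∃ (c : Fin g → R) (x0 : ↥B0) (x1 : ↥B1),
        y = ∑ i, c i • b i + ρ0 B0 B1 x0 + ρ1 B0 B1 x1) ∧
      (∀ (c : Fin g → R) (x0 : ↥B0) (x1 : ↥B1),
        ∑ i, c i • b i + ρ0 B0 B1 x0 + ρ1 B0 B1 x1 = 0 → ∀ i, c i = 0) := by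
  obtain ⟨g, b, hb, hspan, hind⟩ := D.exists_h1_basis hs
  have hcoe : ∀ c : Fin g → R,
      ((∑ i, c i • (⟨b i, hb i⟩ : ↥(B0 ⊔ B1)) : ↥(B0 ⊔ B1)) : F) = ∑ i, c i • b i := by
    intro c
    rw [AddSubmonoidClass.coe_finsetSum]
    rfl
  refine ⟨g, fun i => ⟨b i, hb i⟩, ?_, ?_⟩
  · intro y
    obtain ⟨c, x0, hx0, x1, hx1, hy⟩ := hspan y y.2
    refine ⟨c, ⟨x0, hx0⟩, ⟨x1, hx1⟩, Subtype.ext ?_⟩
    rw [Subalgebra.coe_add, Subalgebra.coe_add, hcoe]
    exact hy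
  · intro c x0 x1 h
    apply hind c
    refine ⟨x0, x0.2, x1, x1.2, ?_⟩
    have := congrArg (fun z : ↥(B0 ⊔ B1) => (z : F)) h
    simp only [Subalgebra.coe_add, hcoe] at this
    exact this

/-! ### the Čech datum -/

theorem cech_inj (D : CohDatum π t B0 B1) :
    ∀ w : R, algebraMap R ↥B0 w = 0 → algebraMap R ↥B1 w = 0 → w = 0 := by
  intro w hw _
  apply D.inj
  rw [map_zero]
  exact congrArg (fun x : ↥B0 => (x : F)) hw

theorem cech_h0 (_D : CohDatum π t B0 B1) (h0 : GenericH0 B0 B1) :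
    ∀ (x0 : ↥B0) (x1 : ↥B1), ρ0 B0 B1 x0 = ρ1 B0 B1 x1 →
      ∃ w : R, algebraMap R ↥B0 w = x0 ∧ algebraMap R ↥B1 w = x1 := by
  intro x0 x1 h
  have h01 : (x0 : F) = x1 := congrArg (fun x : ↥(B0 ⊔ B1) => (x : F)) h
  obtain ⟨r, hr⟩ := h0 x0 x0.2 (by rw [h01]; exact x1.2)
  exact ⟨r, Subtype.ext hr, Subtype.ext (by rw [← h01]; exact hr)⟩

/-- the rank of `H¹`. -/
noncomputable def genus (D : CohDatum π t B0 B1) (hs : SpecialH0 π B0 B1) : ℕ :=
  (D.exists_cech_basis hs).choose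

/-- representatives in `B01` of an `R`-basis of `H¹`. -/
noncomputable def h1Basis (D : CohDatum π t B0 B1) (hs : SpecialH0 π B0 B1) :
    Fin (D.genus hs) → ↥(B0 ⊔ B1) :=
  (D.exists_cech_basis hs).choose_spec.choose

/-- **The Čech datum of a general two-chart datum over a DVR.** -/
noncomputable def cechData (D : CohDatum π t B0 B1) (h0 : GenericH0 B0 B1)
    (hs : SpecialH0 π B0 B1) :
    Fermat.Agent.T1.CechFormal70.CechData R ↥B0 ↥B1 ↥(B0 ⊔ B1) (D.genus hs) where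
  ρ0 := ρ0 B0 B1
  ρ1 := ρ1 B0 B1
  b := D.h1Basis hs
  flat01 := D.flat_subalgebra _
  inj := D.cech_inj
  h0 := D.cech_h0 h0
  span := (D.exists_cech_basis hs).choose_spec.choose_spec.1
  indep := (D.exists_cech_basis hs).choose_spec.choose_spec.2

@[simp] theorem cechData_ρ0 (D : CohDatum π t B0 B1) (h0 : GenericH0 B0 B1)
    (hs : SpecialH0 π B0 B1) : (D.cechData h0 hs).ρ0 = ρ0 B0 B1 := rfl

@[simp] theorem cechData_ρ1 (D : CohDatum π t B0 B1) (h0 : GenericH0 B0 B1)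
    (hs : SpecialH0 π B0 B1) : (D.cechData h0 hs).ρ1 = ρ1 B0 B1 := rfl

@[simp] theorem cechData_b (D : CohDatum π t B0 B1) (h0 : GenericH0 B0 B1)
    (hs : SpecialH0 π B0 B1) : (D.cechData h0 hs).b = D.h1Basis hs := rfl

/-- A Čech datum with any prescribed family of representatives of a basis of `H¹`. -/
def cechDataOf (D : CohDatum π t B0 B1) (h0 : GenericH0 B0 B1) {g : ℕ}
    (b : Fin g → ↥(B0 ⊔ B1))
    (hspan : ∀ y : ↥(B0 ⊔ B1), ∃ (c : Fin g → R) (x0 : ↥B0) (x1 : ↥B1),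
      y = ∑ i, c i • b i + ρ0 B0 B1 x0 + ρ1 B0 B1 x1)
    (hind : ∀ (c : Fin g → R) (x0 : ↥B0) (x1 : ↥B1),
      ∑ i, c i • b i + ρ0 B0 B1 x0 + ρ1 B0 B1 x1 = 0 → ∀ i, c i = 0) :
    Fermat.Agent.T1.CechFormal70.CechData R ↥B0 ↥B1 ↥(B0 ⊔ B1) g where
  ρ0 := ρ0 B0 B1
  ρ1 := ρ1 B0 B1
  b := b
  flat01 := D.flat_subalgebra _
  inj := D.cech_inj
  h0 := D.cech_h0 h0
  span := hspan
  indep := hind

end CohDatum

end Fermat.Agent.T1B.NodalCoh30
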