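/-
T1B brick N-COH (helper30), file 2: ONE vertical valuation ring `O ⊇ B0, B1` with uniformiser `π`.

`ValDatum.const_mod_pi`: if `x0 ∈ B0`, `x1 ∈ B1` and `x0 + x1 ∈ π O`, then `x0` is congruent
modulo `π O` to a constant of `R`, provided `κ = R/π` is algebraically closed in the residue field
of `O` (`ModelCoh30.ResAlgClosed π O`).  (The class of `x0` in the residue field is integral over
`κ[t̄]` and over `κ[t̄⁻¹]`, hence over `κ` by `ModelCoh30.isIntegralElem_of_both`.)
Also: model-free criteria for `ResAlgClosed` (`resAlgClosed_of_red'`, Gauss valuation rings,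
transport along an automorphism of `F`).
-/
import Mathlib
import Fermat.Agent.RED.NumInst4
import Fermat.Agent.T1.ModelCoh30.GaussRes

set_option autoImplicit false
set_option linter.unusedSectionVars false
set_option linter.style.haveILetI false

namespace Fermat.Agent.T1B.NodalCoh30

open Polynomial Fermat.Agent.T1.ModelCoh30

variable {R F : Type*} [CommRing R] [Field F] [Algebra R F]

/-- One vertical valuation ring of a two-chart datum: `O ⊇ B0, B1`, with uniformiser `π`. -/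
structure ValDatum (π : R) (t : F) (B0 B1 : Subalgebra R F) (O : ValuationSubring F) : Prop where
  t_ne : t ≠ 0
  t_mem : t ∈ B0
  tinv_mem : t⁻¹ ∈ B1
  int0 : ∀ x ∈ B0, IsIntegral (Algebra.adjoin R {t}) x
  int1 : ∀ x ∈ B1, IsIntegral (Algebra.adjoin R {t⁻¹}) x
  le0 : ∀ x ∈ B0, x ∈ O
  le1 : ∀ x ∈ B1, x ∈ O
  pi_nonunit : (algebraMap R F π)⁻¹ ∉ O
  unif : ∀ x ∈ O, x⁻¹ ∉ O → ∃ c ∈ O, x = algebraMap R F π * c

variable {π : R} {t : F} {B0 B1 : Subalgebra R F} {O : ValuationSubring F}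

namespace ValDatum

theorem algebraMap_mem (V : ValDatum π t B0 B1 O) (r : R) : algebraMap R F r ∈ O :=
  V.le0 _ (B0.algebraMap_mem r)

theorem not_pi_mul_eq_one (V : ValDatum π t B0 B1 O) {c : F} (hc : c ∈ O) :
    algebraMap R F π * c ≠ 1 := by
  intro h
  apply V.pi_nonunit
  rw [inv_eq_of_mul_eq_one_right h]
  exact hc

/-- `R → O`. -/
def toO (V : ValDatum π t B0 B1 O) : R →+* ↥O where
  toFun r := ⟨algebraMap R F r, V.algebraMap_mem r⟩
  map_one' := Subtype.ext (map_one _)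
  map_mul' _ _ := Subtype.ext (map_mul _ _ _)
  map_zero' := Subtype.ext (map_zero _)
  map_add' _ _ := Subtype.ext (map_add _ _ _)

@[simp] theorem coe_toO (V : ValDatum π t B0 B1 O) (r : R) :
    ((V.toO r : ↥O) : F) = algebraMap R F r := rfl

theorem subtype_comp_toO (V : ValDatum π t B0 B1 O) :
    O.subtype.comp V.toO = algebraMap R F := by
  ext r
  rfl

theorem coe_eval₂_toO (V : ValDatum π t B0 B1 O) (x : ↥O) (p : R[X]) :
    ((eval₂ V.toO x p : ↥O) : F) = aeval (x : F) p := by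
  have := hom_eval₂ p V.toO O.subtype x
  rw [V.subtype_comp_toO] at this
  rw [aeval_def]
  exact this

/-- the kernel of the residue map of `O` is `π O`. -/
theorem residue_eq_zero_iff (V : ValDatum π t B0 B1 O) (x : ↥O) :
    IsLocalRing.residue ↥O x = 0 ↔ ∃ c ∈ O, (x : F) = algebraMap R F π * c := by
  rw [IsLocalRing.residue_eq_zero_iff, IsLocalRing.mem_maximalIdeal, mem_nonunits_iff]
  constructor
  · intro hx
    by_cases hx0 : (x : F) = 0
    · exact ⟨0, O.zero_mem, by rw [hx0, mul_zero]⟩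
    · apply V.unif _ x.2
      intro hinv
      apply hx
      refine IsUnit.of_mul_eq_one (⟨(x : F)⁻¹, hinv⟩ : ↥O) ?_
      apply Subtype.ext
      show (x : F) * (x : F)⁻¹ = 1
      exact mul_inv_cancel₀ hx0
  · rintro ⟨c, hc, hxc⟩ ⟨u, hu⟩
    have h1 : (x : F) * ((u⁻¹ : (↥O)ˣ) : ↥O) = 1 := by
      have : x * ((u⁻¹ : (↥O)ˣ) : ↥O) = 1 := by rw [← hu, Units.mul_inv]
      exact congrArg (fun z : ↥O => (z : F)) this
    refine V.not_pi_mul_eq_one (O.mul_mem _ _ hc ((u⁻¹ : (↥O)ˣ) : ↥O).2) ?_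
    rw [← mul_assoc, ← hxc]
    exact h1

theorem residue_isIntegralElem (V : ValDatum π t B0 B1 O) (s : ↥O) (x : ↥O)
    (h : IsIntegral ↥(Algebra.adjoin R {(s : F)}) (x : F)) :
    (eval₂RingHom ((IsLocalRing.residue ↥O).comp V.toO)
      (IsLocalRing.residue ↥O s)).IsIntegralElem (IsLocalRing.residue ↥O x) := by
  have h1 := isIntegralElem_eval₂_of_isIntegral_adjoin h
  have hcomp : O.subtype.comp (eval₂RingHom V.toO s) =
      eval₂RingHom (algebraMap R F) (s : F) := by
    apply Polynomial.ringHom_ext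
    · intro a
      simp
    · simp
  have h2 : (eval₂RingHom V.toO s).IsIntegralElem x := by
    apply RingHom.IsIntegralElem.of_map (g := O.subtype) Subtype.val_injective
    rw [hcomp]
    exact h1
  have h3 := h2.map (IsLocalRing.residue ↥O)
  have hcomp2 : (IsLocalRing.residue ↥O).comp (eval₂RingHom V.toO s) =
      eval₂RingHom ((IsLocalRing.residue ↥O).comp V.toO) (IsLocalRing.residue ↥O s) := by
    apply Polynomial.ringHom_ext
    · intro a
      simp
    · simp
  rw [hcomp2] at h3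
  exact h3

theorem pi_not_isUnit (V : ValDatum π t B0 B1 O) : ¬ IsUnit π := by
  rintro ⟨u, rfl⟩
  apply V.pi_nonunit
  have h : (algebraMap R F (u : R))⁻¹ = algebraMap R F ((u⁻¹ : Rˣ) : R) := by
    apply inv_eq_of_mul_eq_one_right
    rw [← map_mul, Units.mul_inv, map_one]
  rw [h]
  exact V.algebraMap_mem _

/-- **One component**: `x0 ∈ B0`, `x1 ∈ B1`, `x0 + x1 ∈ π O` ⇒ `x0 ≡ r mod π O` with `r ∈ R`. -/
theorem const_mod_pi (V : ValDatum π t B0 B1 O) (hκ : ResAlgClosed π O)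
    {x0 x1 y : F} (hx0 : x0 ∈ B0) (hx1 : x1 ∈ B1) (hy : y ∈ O)
    (h : x0 + x1 = algebraMap R F π * y) :
    ∃ r : R, ∃ c ∈ O, x0 - algebraMap R F r = algebraMap R F π * c := by
  set res := IsLocalRing.residue ↥O with hres
  let x0' : ↥O := ⟨x0, V.le0 x0 hx0⟩
  let x1' : ↥O := ⟨x1, V.le1 x1 hx1⟩
  let t' : ↥O := ⟨t, V.le0 t V.t_mem⟩
  let s' : ↥O := ⟨t⁻¹, V.le1 _ V.tinv_mem⟩
  have hsum : res x1' = - res x0' := by
    have : res (x0' + x1') = 0 := by
      rw [hres, V.residue_eq_zero_iff]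
      exact ⟨y, hy, h⟩
    rw [map_add] at this
    exact eq_neg_of_add_eq_zero_right this
  have hts : res s' = (res t')⁻¹ := by
    have : res t' * res s' = 1 := by
      rw [← map_mul]
      have : t' * s' = 1 := Subtype.ext (mul_inv_cancel₀ V.t_ne)
      rw [this, map_one]
    exact eq_inv_of_mul_eq_one_right this
  have hint0 := V.residue_isIntegralElem t' x0' (V.int0 x0 hx0)
  have hint1 := V.residue_isIntegralElem s' x1' (V.int1 x1 hx1)
  rw [← hres, hsum, hts] at hint1
  rw [← hres] at hint0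
  have hint1' := hint1.of_neg
  obtain ⟨p, hpm, hp⟩ := isIntegralElem_of_both _ _ _ hint0 hint1'
  have hp' : res (eval₂ V.toO x0' p) = 0 := by
    rw [hom_eval₂]
    exact hp
  rw [hres, V.residue_eq_zero_iff, V.coe_eval₂_toO] at hp'
  have hcoeff : ∃ i, ¬ π ∣ p.coeff i := by
    refine ⟨p.natDegree, ?_⟩
    rw [hpm.coeff_natDegree]
    intro hdvd
    exact V.pi_not_isUnit (isUnit_of_dvd_one hdvd)
  exact hκ x0 (V.le0 x0 hx0) p hcoeff hp'

end ValDatum

/-! ### criteria for `ResAlgClosed`, free of any model -/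

/-- A reduction map `red : O → L` into a field `L` with kernel `π O` such that the image of `R` is
algebraically closed in `L`. -/
theorem resAlgClosed_of_red' {L : Type*} [Field L] (hO : ∀ r : R, algebraMap R F r ∈ O)
    (hdvd : ∀ r : R, (∃ c ∈ O, algebraMap R F r = algebraMap R F π * c) → π ∣ r)
    (red : ↥O →+* L) (redR : R →+* L)
    (hred : ∀ (r : R) (h : algebraMap R F r ∈ O), red ⟨_, h⟩ = redR r)
    (hpi : redR π = 0)
    (hker : ∀ x : ↥O, red x = 0 → ∃ c ∈ O, (x : F) = algebraMap R F π * c)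
    (hL : ∀ y : L, (∃ p : R[X], p.map redR ≠ 0 ∧ (p.map redR).eval y = 0) →
      ∃ r : R, redR r = y) :
    ResAlgClosed π O := by
  intro x hx p hp hxp
  obtain ⟨i, hi⟩ := hp
  obtain ⟨c, hc, hpc⟩ := hxp
  let φ : R →+* ↥O :=
    { toFun := fun r => ⟨algebraMap R F r, hO r⟩
      map_one' := Subtype.ext (map_one _)
      map_mul' := fun _ _ => Subtype.ext (map_mul _ _ _)
      map_zero' := Subtype.ext (map_zero _)
      map_add' := fun _ _ => Subtype.ext (map_add _ _ _) }
  have hφ : O.subtype.comp φ = algebraMap R F := by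
    ext r
    rfl
  have hcomp : red.comp φ = redR := by
    ext r
    exact hred r _
  have hcoe : ((eval₂ φ ⟨x, hx⟩ p : ↥O) : F) = aeval x p := by
    have := hom_eval₂ p φ O.subtype ⟨x, hx⟩
    rw [hφ] at this
    rw [aeval_def]
    exact this
  have hroot : (p.map redR).eval (red ⟨x, hx⟩) = 0 := by
    rw [eval_map, ← hcomp, ← hom_eval₂]
    have h1 : eval₂ φ ⟨x, hx⟩ p = φ π * ⟨c, hc⟩ := by
      apply Subtype.ext
      rw [hcoe]
      exact hpc
    rw [h1, map_mul]
    have : red (φ π) = redR π := hred π _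
    rw [this, hpi, zero_mul]
  have hne : p.map redR ≠ 0 := by
    intro h0
    apply hi
    have h1 : redR (p.coeff i) = 0 := by
      have := congrArg (fun q => q.coeff i) h0
      simpa [coeff_map] using this
    have h2 : red (φ (p.coeff i)) = 0 := by
      rw [← h1]
      exact hred _ _
    exact hdvd _ (hker _ h2)
  obtain ⟨r, hr⟩ := hL _ ⟨p, hne, hroot⟩
  have h3 : red (⟨x, hx⟩ - φ r) = 0 := by
    rw [map_sub, ← hr]
    have : red (φ r) = redR r := hred r _
    rw [this, sub_self]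
  obtain ⟨c', hc', h4⟩ := hker _ h3
  exact ⟨r, c', hc', h4⟩

/-- Transport of `ResAlgClosed` along an `R`-algebra automorphism of `F`. -/
theorem resAlgClosed_comap (σ : F ≃ₐ[R] F) (h : ResAlgClosed π O) :
    ResAlgClosed π (O.comap (σ : F →+* F)) := by
  intro x hx p hp hxp
  obtain ⟨c, hc, hpc⟩ := hxp
  have hx' : σ x ∈ O := hx
  have hc' : σ c ∈ O := hc
  have h1 : aeval (σ x) p = algebraMap R F π * σ c := by
    have h2 : aeval (σ x) p = σ (aeval x p) :=
      Polynomial.aeval_algHom_apply (σ : F →ₐ[R] F) x p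
    rw [h2, hpc, map_mul, AlgEquiv.commutes]
  obtain ⟨r, d, hd, hrd⟩ := h (σ x) hx' p hp ⟨σ c, hc', h1⟩
  refine ⟨r, σ.symm d, ?_, ?_⟩
  · show σ (σ.symm d) ∈ O
    rw [AlgEquiv.apply_symm_apply]
    exact hd
  · apply σ.injective
    rw [map_sub, AlgEquiv.commutes, map_mul, AlgEquiv.commutes, AlgEquiv.apply_symm_apply]
    exact hrd

section Gauss

open HahnSeries Fermat.Agent.RED.PUR.GaussGen8

variable {Kt : Type*} [Field Kt] {O' : ValuationSubring Kt}
  {E : IntermediateField Kt (LaurentSeries Kt)}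

/-- `ResAlgClosed` for every Gauss valuation ring (no model needed). -/
theorem resAlgClosed_gaussVS' {ϖ : O'} (hϖ : IsUnif O' ϖ) (hE : E ≤ fracField O') :
    ResAlgClosed (R := ↥O') (F := ↥E) ϖ (gaussVS hϖ E hE) := by
  have hcoe : ∀ a : O', ((algebraMap ↥O' ↥E a : E) : LaurentSeries Kt) =
      HahnSeries.C ((a : O') : Kt) := Fermat.Agent.RED.NumInst4.coe_algebraMap_OE O' E
  have hO : ∀ r : O', algebraMap ↥O' ↥E r ∈ gaussVS hϖ E hE := by
    intro r
    rw [mem_gaussVS_iff, hcoe]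
    exact C_mem O' r
  have hredC : ∀ (r : O') (h : algebraMap ↥O' ↥E r ∈ gaussVS hϖ E hE),
      gaussVSRed hϖ E hE ⟨_, h⟩ = HahnSeries.C (res0 O' r) := by
    intro r h
    rw [gaussVSRed_apply]
    have : (⟨((⟨algebraMap ↥O' ↥E r, h⟩ : gaussVS hϖ E hE) : E),
        (mem_gaussVS_iff hϖ E hE _).mp h⟩ : gaussRing O') = constG O' r :=
      Subtype.ext (hcoe r)
    rw [this, gaussRed_constG]
  have hϖE : (algebraMap ↥O' ↥E ϖ : E) ≠ 0 := by
    intro h0
    have := congrArg (fun z : E => (z : LaurentSeries Kt)) h0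
    simp only [hcoe] at this
    exact piK_ne_zero hϖ this
  have hker : ∀ x : ↥(gaussVS hϖ E hE), gaussVSRed hϖ E hE x = 0 →
      ∃ c ∈ gaussVS hϖ E hE, (x : E) = algebraMap ↥O' ↥E ϖ * c := by
    intro x hx
    rw [gaussVSRed_apply, gaussRed_eq_zero_iff hϖ] at hx
    obtain ⟨g, hg⟩ := hx
    have hg' : ((x : E) : LaurentSeries Kt) = piK ϖ * (g : LaurentSeries Kt) :=
      congrArg (fun f : gaussRing O' => (f : LaurentSeries Kt)) hg
    refine ⟨(x : E) * (algebraMap ↥O' ↥E ϖ)⁻¹, ?_, ?_⟩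
    · rw [mem_gaussVS_iff]
      have : (((x : E) * (algebraMap ↥O' ↥E ϖ)⁻¹ : E) : LaurentSeries Kt) = g := by
        push_cast
        rw [hcoe, hg', mul_comm (piK ϖ), mul_assoc, mul_inv_cancel₀ (piK_ne_zero hϖ), mul_one]
      rw [this]
      exact g.2
    · rw [mul_comm (x : E), ← mul_assoc, mul_inv_cancel₀ hϖE, one_mul]
  refine resAlgClosed_of_red' hO ?_ (gaussVSRed hϖ E hE)
    ((HahnSeries.C : Res O' →+* LaurentSeries (Res O')).comp (res0 O')) hredC ?_ hker ?_
  · -- `π O ∩ R = π R`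
    rintro r ⟨c, hc, hrc⟩
    have h1 : gaussVSRed hϖ E hE ⟨_, hO r⟩ = 0 := by
      have : (⟨algebraMap ↥O' ↥E r, hO r⟩ : gaussVS hϖ E hE) =
          ⟨algebraMap ↥O' ↥E ϖ, hO ϖ⟩ * ⟨c, hc⟩ := Subtype.ext hrc
      rw [this, map_mul, hredC ϖ, res0_unif hϖ, map_zero, zero_mul]
    rw [hredC] at h1
    have h2 : res0 O' r = 0 := HahnSeries.C_injective (by rw [h1, map_zero])
    obtain ⟨r', hr'⟩ := (res0_eq_zero_iff hϖ r).1 h2
    exact ⟨r', hr'⟩
  · show HahnSeries.C (res0 O' ϖ) = 0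
    rw [res0_unif hϖ, map_zero]
  · rintro y ⟨p, hp0, hroot⟩
    have hmap : p.map ((HahnSeries.C : Res O' →+* LaurentSeries (Res O')).comp (res0 O')) =
        (p.map (res0 O')).map (HahnSeries.C : Res O' →+* LaurentSeries (Res O')) := by
      rw [Polynomial.map_map]
    rw [hmap] at hp0 hroot
    have hq : p.map (res0 O') ≠ 0 := by
      intro h
      apply hp0
      rw [h, Polynomial.map_zero]
    obtain ⟨c, hc⟩ := exists_C_eq_of_root hq hroot
    obtain ⟨r, rfl⟩ := IsLocalRing.residue_surjective c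
    exact ⟨r, hc⟩

end Gauss

end Fermat.Agent.T1B.NodalCoh30
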