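/-
T1B brick N-COH (helper30), file 3: the NODAL two-chart model
`ES.N34.NodalCore13.NodalTwoChartModel R F π t B0 B1 O1 O2` (reduced special fibre with two
components `O1`, `O2`) has `H⁰(special fibre) = R/π` as soon as the two components MEET
(there is a node), and hence a Čech datum `CechFormal70.CechData R ↥B0 ↥B1 ↥(B0 ⊔ B1) g`.

Extra hypotheses (not fields of `NodalTwoChartModel`): `R → F` injective, `R` a DVR with
uniformiser `π` (`dvrR` form), `GenericH0` (`B0 ∩ B1 = R`), `ResAlgClosed π O1`, `ResAlgClosed π O2`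
(automatic for Gauss valuation rings and their transports, see `Val.lean`), and `Meet`.
The smooth model `CoreIface24.TwoChartModel` is treated in the same vocabulary at the end.
-/
import Mathlib
import Fermat.Agent.ES.N34.NodalCore13
import Fermat.Agent.T1B.NodalCoh30.Gen
import Fermat.Agent.T1B.NodalCoh30.Val

set_option autoImplicit false
set_option linter.unusedSectionVars false
set_option linter.style.haveILetI false

namespace Fermat.Agent.T1B.NodalCoh30

open Polynomial Fermat.Agent.T1.ModelCoh30 Fermat.Agent.ES.N34.NodalCore13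

variable {R F : Type*} [CommRing R] [Field F] [Algebra R F]
variable {π : R} {t : F} {B0 B1 : Subalgebra R F} {O1 O2 : ValuationSubring F}

/-- The two components of the special fibre meet on the chart `B`: the ideals `B ∩ π O1` and
`B ∩ π O2` are not comaximal (elementwise). -/
def Meet (π : R) (B : Subalgebra R F) (O1 O2 : ValuationSubring F) : Prop :=
  ∀ b1 ∈ B, ∀ b2 ∈ B, (∃ c ∈ O1, b1 = algebraMap R F π * c) →
    (∃ c ∈ O2, b2 = algebraMap R F π * c) → b1 + b2 ≠ 1

/-- A node: a proper ideal of the chart through which both components pass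
(`¬ OffBranch` in the vocabulary of `NodalCore13`). -/
theorem meet_of_node {B : Subalgebra R F} (𝔪 : Ideal ↥B) (h𝔪 : 𝔪 ≠ ⊤)
    (h1 : ¬ OffBranch π B O1 𝔪) (h2 : ¬ OffBranch π B O2 𝔪) : Meet π B O1 O2 := by
  intro b1 hb1 b2 hb2 hc1 hc2 hsum
  have hm1 : (⟨b1, hb1⟩ : ↥B) ∈ 𝔪 := by
    by_contra hn
    exact h1 ⟨⟨b1, hb1⟩, hn, hc1⟩
  have hm2 : (⟨b2, hb2⟩ : ↥B) ∈ 𝔪 := by
    by_contra hn
    exact h2 ⟨⟨b2, hb2⟩, hn, hc2⟩
  apply h𝔪
  rw [Ideal.eq_top_iff_one]
  have : (1 : ↥B) = ⟨b1, hb1⟩ + ⟨b2, hb2⟩ := Subtype.ext hsum.symm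
  rw [this]
  exact 𝔪.add_mem hm1 hm2

/-! ### the nodal model -/

theorem valDatum1 (N : NodalTwoChartModel R F π t B0 B1 O1 O2) : ValDatum π t B0 B1 O1 where
  t_ne := N.t_ne
  t_mem := N.t_mem
  tinv_mem := N.tinv_mem
  int0 := N.int0
  int1 := N.int1
  le0 := N.le_O1_0
  le1 := N.le_O1_1
  pi_nonunit := N.pi_nonunit1
  unif := N.unif1

theorem valDatum2 (N : NodalTwoChartModel R F π t B0 B1 O1 O2) : ValDatum π t B0 B1 O2 where
  t_ne := N.t_ne
  t_mem := N.t_mem
  tinv_mem := N.tinv_mem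
  int0 := N.int0
  int1 := N.int1
  le0 := N.le_O2_0
  le1 := N.le_O2_1
  pi_nonunit := N.pi_nonunit2
  unif := N.unif2

theorem cohDatum_of_nodal (N : NodalTwoChartModel R F π t B0 B1 O1 O2)
    (hinj : Function.Injective (algebraMap R F))
    (dvrR : ∀ r : R, r ≠ 0 → ∃ (k : ℕ) (v : Rˣ), r = π ^ k * v) : CohDatum π t B0 B1 where
  inj := hinj
  dvrR := dvrR
  pi_ne := by
    rintro rfl
    exact N.pi_ne (map_zero _)
  t_ne := N.t_ne
  t_mem := N.t_mem
  tinv_mem := N.tinv_mem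
  fin0 := N.fin0
  ov0 := N.ov0
  ov1 := N.ov1

/-- `B01 ⊆ O` for a valuation ring containing both charts. -/
theorem sup_le_of_le {O : ValuationSubring F} (hR : ∀ r : R, algebraMap R F r ∈ O)
    (h0 : ∀ x ∈ B0, x ∈ O) (h1 : ∀ x ∈ B1, x ∈ O) : ∀ x ∈ B0 ⊔ B1, x ∈ O := by
  let OA : Subalgebra R F := { O.toSubring.toSubsemiring with algebraMap_mem' := hR }
  have hle : B0 ⊔ B1 ≤ OA := sup_le (fun y hy => h0 y hy) (fun y hy => h1 y hy)
  exact fun x hx => hle hx

/-- the inverse of the image of a unit of `R` lies in every subring containing `R`. -/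
theorem inv_unit_mem {S : Subalgebra R F} (u : Rˣ) : (algebraMap R F (u : R))⁻¹ ∈ S := by
  have h : (algebraMap R F (u : R))⁻¹ = algebraMap R F ((u⁻¹ : Rˣ) : R) := by
    apply inv_eq_of_mul_eq_one_right
    rw [← map_mul, Units.mul_inv, map_one]
  rw [h]
  exact S.algebraMap_mem _

/-- **`H⁰` of the nodal special fibre is `R/π`** when the two components meet. -/
theorem specialH0_of_nodal (N : NodalTwoChartModel R F π t B0 B1 O1 O2)
    (dvrR : ∀ r : R, r ≠ 0 → ∃ (k : ℕ) (v : Rˣ), r = π ^ k * v)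
    (hκ1 : ResAlgClosed π O1) (hκ2 : ResAlgClosed π O2)
    (hmeet : Meet π B0 O1 O2 ∨ Meet π B1 O1 O2) : SpecialH0 π B0 B1 := by
  intro x0 hx0 x1 hx1 y hy h
  have V1 := valDatum1 N
  have V2 := valDatum2 N
  have hy1 : y ∈ O1 := sup_le_of_le V1.algebraMap_mem N.le_O1_0 N.le_O1_1 y hy
  have hy2 : y ∈ O2 := sup_le_of_le V2.algebraMap_mem N.le_O2_0 N.le_O2_1 y hy
  obtain ⟨r1, c1, hc1, h1⟩ := V1.const_mod_pi hκ1 hx0 hx1 hy1 h
  obtain ⟨r2, c2, hc2, h2⟩ := V2.const_mod_pi hκ2 hx0 hx1 hy2 h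
  set p : F := algebraMap R F π with hp
  -- `x1 + r_j = π (y - c_j)`
  have h1' : x1 + algebraMap R F r1 = p * (y - c1) := by
    rw [mul_sub, ← h, ← h1]; ring
  have h2' : x1 + algebraMap R F r2 = p * (y - c2) := by
    rw [mul_sub, ← h, ← h2]; ring
  -- the two constants agree modulo `π`
  have hdvd : π ∣ r1 - r2 := by
    by_cases h0 : r1 - r2 = 0
    · rw [h0]; exact dvd_zero _
    obtain ⟨k, u, hu⟩ := dvrR _ h0
    rcases Nat.eq_zero_or_pos k with hk | hk
    · exfalso
      subst hk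
      rw [pow_zero, one_mul] at hu
      have huF : algebraMap R F (u : R) ≠ 0 := by
        intro h0'
        have : algebraMap R F ((u : R) * ((u⁻¹ : Rˣ) : R)) = 0 := by
          rw [map_mul, h0', zero_mul]
        rw [Units.mul_inv, map_one] at this
        exact one_ne_zero this
      set ui : F := (algebraMap R F (u : R))⁻¹ with hui
      have hru : algebraMap R F r1 - algebraMap R F r2 = algebraMap R F (u : R) := by
        rw [← map_sub, hu]
      rcases hmeet with hm | hm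
      · -- node on `B0`
        refine hm (-(ui * (x0 - algebraMap R F r1)))
          (B0.neg_mem (B0.mul_mem (inv_unit_mem u) (B0.sub_mem hx0 (B0.algebraMap_mem _))))
          (ui * (x0 - algebraMap R F r2))
          (B0.mul_mem (inv_unit_mem u) (B0.sub_mem hx0 (B0.algebraMap_mem _)))
          ⟨-(ui * c1), O1.neg_mem _ (O1.mul_mem _ _
            (inv_unit_mem (S := { O1.toSubring.toSubsemiring with
              algebraMap_mem' := V1.algebraMap_mem }) u) hc1), by rw [h1]; ring⟩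
          ⟨ui * c2, O2.mul_mem _ _
            (inv_unit_mem (S := { O2.toSubring.toSubsemiring with
              algebraMap_mem' := V2.algebraMap_mem }) u) hc2, by rw [h2]; ring⟩ ?_
        have : -(ui * (x0 - algebraMap R F r1)) + ui * (x0 - algebraMap R F r2) =
            ui * (algebraMap R F r1 - algebraMap R F r2) := by ring
        rw [this, hru, hui, inv_mul_cancel₀ huF]
      · -- node on `B1`
        refine hm (ui * (x1 + algebraMap R F r1))
          (B1.mul_mem (inv_unit_mem u) (B1.add_mem hx1 (B1.algebraMap_mem _)))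
          (-(ui * (x1 + algebraMap R F r2)))
          (B1.neg_mem (B1.mul_mem (inv_unit_mem u) (B1.add_mem hx1 (B1.algebraMap_mem _))))
          ⟨ui * (y - c1), O1.mul_mem _ _
            (inv_unit_mem (S := { O1.toSubring.toSubsemiring with
              algebraMap_mem' := V1.algebraMap_mem }) u) (sub_mem hy1 hc1), by rw [h1']; ring⟩
          ⟨-(ui * (y - c2)), O2.neg_mem _ (O2.mul_mem _ _
            (inv_unit_mem (S := { O2.toSubring.toSubsemiring with
              algebraMap_mem' := V2.algebraMap_mem }) u) (sub_mem hy2 hc2)), by rw [h2']; ring⟩ ?_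
        have : ui * (x1 + algebraMap R F r1) + -(ui * (x1 + algebraMap R F r2)) =
            ui * (algebraMap R F r1 - algebraMap R F r2) := by ring
        rw [this, hru, hui, inv_mul_cancel₀ huF]
    · obtain ⟨k', rfl⟩ : ∃ k', k = k' + 1 := ⟨k - 1, by omega⟩
      exact ⟨π ^ k' * u, by rw [hu, pow_succ]; ring⟩
  obtain ⟨d, hd⟩ := hdvd
  -- `c1 = c2 - d ∈ O2`
  have hc12 : c1 = c2 - algebraMap R F d := by
    apply mul_left_cancel₀ N.pi_ne
    rw [← hp, ← h1, mul_sub, ← h2, hp, ← map_mul, ← hd, map_sub]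
    ring
  have hc1O2 : c1 ∈ O2 := by
    rw [hc12]
    exact sub_mem hc2 (V2.algebraMap_mem d)
  refine ⟨r1, ⟨c1, ?_, h1⟩, ⟨y - c1, ?_, h1'⟩⟩
  · exact N.sat0 _ (B0.sub_mem hx0 (B0.algebraMap_mem _)) c1 hc1 hc1O2 h1
  · exact N.sat1 _ (B1.add_mem hx1 (B1.algebraMap_mem _)) (y - c1) (sub_mem hy1 hc1)
      (sub_mem hy2 hc1O2) h1'

/-- **N-COH**: the Čech datum of the nodal two-chart model. -/
noncomputable def nodalCechData (N : NodalTwoChartModel R F π t B0 B1 O1 O2)
    (hinj : Function.Injective (algebraMap R F))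
    (dvrR : ∀ r : R, r ≠ 0 → ∃ (k : ℕ) (v : Rˣ), r = π ^ k * v)
    (h0 : GenericH0 B0 B1) (hκ1 : ResAlgClosed π O1) (hκ2 : ResAlgClosed π O2)
    (hmeet : Meet π B0 O1 O2 ∨ Meet π B1 O1 O2) :
    Fermat.Agent.T1.CechFormal70.CechData R ↥B0 ↥B1 ↥(B0 ⊔ B1)
      ((cohDatum_of_nodal N hinj dvrR).genus (specialH0_of_nodal N dvrR hκ1 hκ2 hmeet)) :=
  (cohDatum_of_nodal N hinj dvrR).cechData h0 (specialH0_of_nodal N dvrR hκ1 hκ2 hmeet)

/-! ### `GenericH0` from "`K` is algebraically closed in `F`" -/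

section Generic

variable {K : Type*} [Field K] [Algebra R K] [Algebra K F] [IsScalarTower R K F]

/-- `O ∩ K = R` for a vertical valuation ring with uniformiser `π`. -/
theorem exists_of_mem_O {O : ValuationSubring F} (V : ValDatum π t B0 B1 O)
    [IsFractionRing R K] (dvrR : ∀ r : R, r ≠ 0 → ∃ (k : ℕ) (v : Rˣ), r = π ^ k * v)
    (hπ : π ≠ 0) (c : K) (hc : algebraMap K F c ∈ O) : ∃ r : R, algebraMap R K r = c := by
  have hinjK : Function.Injective (algebraMap R K) := IsFractionRing.injective R K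
  haveI : IsDomain R := Function.Injective.isDomain (algebraMap R K) hinjK
  obtain ⟨a, b, hb, rfl⟩ := IsFractionRing.div_surjective (A := R) c
  have hb0 : b ≠ 0 := nonZeroDivisors.ne_zero hb
  by_cases ha0 : a = 0
  · exact ⟨0, by rw [ha0, map_zero, zero_div]⟩
  obtain ⟨k, u, rfl⟩ := dvrR a ha0
  obtain ⟨l, v, rfl⟩ := dvrR b hb0
  rcases le_or_gt l k with hlk | hlk
  · obtain ⟨d, rfl⟩ := Nat.exists_eq_add_of_le hlk
    refine ⟨π ^ d * u * ((v⁻¹ : Rˣ) : R), ?_⟩
    rw [eq_div_iff ((map_ne_zero_iff _ hinjK).2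
      (mul_ne_zero (pow_ne_zero _ hπ) v.ne_zero)), ← map_mul]
    congr 1
    have : ((v⁻¹ : Rˣ) : R) * (v : R) = 1 := Units.inv_mul v
    calc π ^ d * ↑u * ↑v⁻¹ * (π ^ l * ↑v) = π ^ l * π ^ d * ↑u * (↑v⁻¹ * ↑v) := by ring
      _ = π ^ (l + d) * ↑u := by rw [this, mul_one, pow_add]
  · exfalso
    obtain ⟨d, rfl⟩ : ∃ d, l = k + 1 + d := ⟨l - (k + 1), by omega⟩
    set c : K := algebraMap R K (π ^ k * (u : R)) / algebraMap R K (π ^ (k + 1 + d) * (v : R))
      with hcdef
    have hcK : c * algebraMap R K (π * (π ^ d * ((v : R) * ((u⁻¹ : Rˣ) : R)))) = 1 := by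
      rw [hcdef, div_mul_eq_mul_div, div_eq_one_iff_eq ((map_ne_zero_iff _ hinjK).2
        (mul_ne_zero (pow_ne_zero _ hπ) v.ne_zero)), ← map_mul]
      congr 1
      have : (u : R) * ((u⁻¹ : Rˣ) : R) = 1 := Units.mul_inv u
      calc π ^ k * ↑u * (π * (π ^ d * (↑v * ↑u⁻¹)))
          = π ^ k * π * π ^ d * ↑v * (↑u * ↑u⁻¹) := by ring
        _ = π ^ (k + 1 + d) * ↑v := by rw [this, mul_one, pow_add, pow_succ]
    have hcF : algebraMap R F π * (algebraMap K F c *
        algebraMap R F (π ^ d * ((v : R) * ((u⁻¹ : Rˣ) : R)))) = 1 := by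
      have := congrArg (algebraMap K F) hcK
      rw [map_mul, map_one, ← IsScalarTower.algebraMap_apply R K F, map_mul] at this
      rw [← this]
      ring
    exact V.not_pi_mul_eq_one (O.mul_mem _ _ hc (V.algebraMap_mem _)) hcF

/-- `B0 ∩ B1 = R` when `K = Frac R` is algebraically closed in `F`. -/
theorem genericH0_of_algClosed {O : ValuationSubring F} (V : ValDatum π t B0 B1 O)
    [IsFractionRing R K] (dvrR : ∀ r : R, r ≠ 0 → ∃ (k : ℕ) (v : Rˣ), r = π ^ k * v)
    (hπ : π ≠ 0) (hKF : ∀ y : F, IsAlgebraic K y → ∃ c : K, algebraMap K F c = y) :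
    GenericH0 B0 B1 := by
  intro x hx0 hx1
  obtain ⟨c, hc⟩ := Fermat.Agent.RED.CORE.Constants18.exists_algebraMap_eq_of_isIntegral_both
    (R₀ := R) hKF t x (V.int0 x hx0) (V.int1 x hx1)
  obtain ⟨r, hr⟩ := exists_of_mem_O V dvrR hπ c (by rw [hc]; exact V.le0 x hx0)
  exact ⟨r, by rw [IsScalarTower.algebraMap_apply R K F, hr, hc]⟩

end Generic

/-! ### the smooth model in the same vocabulary -/

section Smooth

open Fermat.Agent.RED.CORE.CoreIface24

variable {K : Type*} [Field K] [Algebra R K] [Algebra K F] [IsScalarTower R K F]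
  {Ov : ValuationSubring F}

theorem cohDatum_of_smooth (M : TwoChartModel R K F π t B0 B1 Ov) : CohDatum π t B0 B1 where
  inj := algebraMap_injective M
  dvrR := M.dvrR
  pi_ne := pi_ne_zero M
  t_ne := M.t_ne
  t_mem := M.t_mem
  tinv_mem := M.tinv_mem
  fin0 := M.fin0
  ov0 := M.ov0
  ov1 := M.ov1

theorem specialH0_of_smooth (M : TwoChartModel R K F π t B0 B1 Ov) (hκ : ResAlgClosed π Ov) :
    SpecialH0 π B0 B1 :=
  fun _ hx0 _ hx1 _ hy h => h0_special M hκ hx0 hx1 hy h

theorem genericH0_of_smooth (M : TwoChartModel R K F π t B0 B1 Ov)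
    (hKF : ∀ y : F, IsAlgebraic K y → ∃ c : K, algebraMap K F c = y) : GenericH0 B0 B1 :=
  fun _ hx0 hx1 => h0 M hKF hx0 hx1

end Smooth

end Fermat.Agent.T1B.NodalCoh30
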