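/-
T1B brick N-COH (helper30), file 4: the hub statements for the NODAL chart
`NodalFacts23.nodalChart N` (helper23): `H⁰(O_{X_{R'}}) = R'` for every `R`-algebra `R'`
(`Red68.H0Const ((nodalChart N).baseChange R')`, the hypothesis of `RedN3.ExtInj00`), obtained from
`nodalCechData` by `Red68.h0Const_of_cechData`.  The compatibility hypotheses are `rfl`.
A version for an arbitrary `CohDatum` and an arbitrary two-chart structure with the standard
algebra instances `Coh60.algebra0/algebra1` is included.
-/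
import Mathlib
import Fermat.Agent.T1.Red68.ExtInjModel
import Fermat.Agent.T1B.NodalFacts23.Good
import Fermat.Agent.T1B.NodalCoh30.Nodal

set_option autoImplicit false
set_option linter.unusedSectionVars false

universe u

namespace Fermat.Agent.T1B.NodalCoh30

open Fermat.Agent.Jac Fermat.Agent.Jac.BaseChange75 Fermat.Agent.T1.Coh60
  Fermat.Agent.T1.ModelCoh30 Fermat.Agent.ES.N34.NodalCore13 Fermat.Agent.T1B.NodalFacts23
open scoped Fermat.Agent.Jac.BaseChange75

variable {R F : Type u} [CommRing R] [Field F] [Algebra R F]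
variable {π : R} {t : F} {B0 B1 : Subalgebra R F} {O1 O2 : ValuationSubring F}

/-- `H⁰ = R'` after every base change, for any two-chart structure on `(B0, B1, B0 ⊔ B1)` with the
standard algebra instances. -/
theorem h0Const_baseChange (D : CohDatum π t B0 B1) (h0 : GenericH0 B0 B1)
    (hs : SpecialH0 π B0 B1)
    (c0 : @TwoChart R ↥B0 ↥B1 ↥(B0 ⊔ B1) _ _ _ _ _ _ _ (algebra0 B0 B1) (algebra1 B0 B1)
      (isScalarTower0 B0 B1) (isScalarTower1 B0 B1))
    (R' : Type u) [CommRing R'] [Algebra R R'] :
    letI := algebra0 B0 B1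
    letI := algebra1 B0 B1
    haveI := isScalarTower0 B0 B1
    haveI := isScalarTower1 B0 B1
    Fermat.Agent.T1.Red68.H0Const (c0.baseChange R') :=
  letI := algebra0 B0 B1
  letI := algebra1 B0 B1
  haveI := isScalarTower0 B0 B1
  haveI := isScalarTower1 B0 B1
  Fermat.Agent.T1.Red68.h0Const_of_cechData c0 (D.cechData h0 hs) (fun _ => rfl) (fun _ => rfl) R'

/-- **`H⁰(O_{X_{R'}}) = R'` for the nodal hub chart.** -/
theorem nodal_h0Const (N : NodalTwoChartModel R F π t B0 B1 O1 O2)
    (hinj : Function.Injective (algebraMap R F))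
    (dvrR : ∀ r : R, r ≠ 0 → ∃ (k : ℕ) (v : Rˣ), r = π ^ k * v)
    (h0 : GenericH0 B0 B1) (hκ1 : ResAlgClosed π O1) (hκ2 : ResAlgClosed π O2)
    (hmeet : Meet π B0 O1 O2 ∨ Meet π B1 O1 O2)
    (R' : Type u) [CommRing R'] [Algebra R R'] :
    letI := algebra0 B0 B1
    letI := algebra1 B0 B1
    haveI := isScalarTower0 B0 B1
    haveI := isScalarTower1 B0 B1
    Fermat.Agent.T1.Red68.H0Const ((nodalChart N).baseChange R') :=
  h0Const_baseChange (cohDatum_of_nodal N hinj dvrR) h0
    (specialH0_of_nodal N dvrR hκ1 hκ2 hmeet) (nodalChart N) R'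

end Fermat.Agent.T1B.NodalCoh30
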