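/-
T1B brick N-COH (helper30), file 6: everything from the MODEL deliverable
`ES.N34.NumData13.NodalNumData R K F π t B0 B1 O1 O2` of Program N: it already contains
`fracR`, `dvrR`, `algClosed`, so the only remaining hypotheses for the Čech datum and for
`H⁰(O_{X_{R'}}) = R'` are `ResAlgClosed π O1` and `ResAlgClosed π O2` — and these are automatic
for the concrete model `ES/N34/ModelDefs9` (`O1` a Gauss valuation ring, `O2 = O1.comap W`).
-/
import Mathlib
import Fermat.Agent.ES.N34.NumData13
import Fermat.Agent.T1B.NodalCoh30.Connected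
import Fermat.Agent.T1B.NodalCoh30.Hub

set_option autoImplicit false
set_option linter.unusedSectionVars false

universe u

namespace Fermat.Agent.T1B.NodalCoh30

open Fermat.Agent.Jac Fermat.Agent.Jac.BaseChange75 Fermat.Agent.T1.Coh60
  Fermat.Agent.T1.ModelCoh30 Fermat.Agent.ES.N34.NodalCore13 Fermat.Agent.ES.N34.NumData13
  Fermat.Agent.T1B.NodalFacts23
open scoped Fermat.Agent.Jac.BaseChange75

/-- Transport of `ResAlgClosed` along an `R`-linear involution of `F` given as a ring hom
(e.g. the Fricke involution: `O2 = O1.comap W`). -/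
theorem resAlgClosed_comap_involution {R F : Type*} [CommRing R] [Field F] [Algebra R F] {π : R}
    {O : ValuationSubring F} (w : F →+* F) (hw : ∀ x, w (w x) = x)
    (hR : ∀ r : R, w (algebraMap R F r) = algebraMap R F r) (h : ResAlgClosed π O) :
    ResAlgClosed π (O.comap w) := by
  let σ : F ≃ₐ[R] F :=
    { toFun := w
      invFun := w
      left_inv := hw
      right_inv := hw
      map_mul' := map_mul w
      map_add' := map_add w
      commutes' := hR }
  have hσ : (O.comap (σ : F →+* F)) = O.comap w := by
    ext x
    rfl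
  rw [← hσ]
  exact resAlgClosed_comap σ h

section

variable {R K F : Type u} [CommRing R] [Field K] [Field F] [Algebra R K] [Algebra K F]
  [Algebra R F] [IsScalarTower R K F]
variable {π : R} {t : F} {B0 B1 : Subalgebra R F} {O1 O2 : ValuationSubring F}

theorem injective_of_numData (D : NodalNumData R K F π t B0 B1 O1 O2) :
    Function.Injective (algebraMap R F) := by
  haveI := D.fracR
  rw [IsScalarTower.algebraMap_eq R K F]
  exact (algebraMap K F).injective.comp (IsFractionRing.injective R K)

theorem cohDatum_of_numData (D : NodalNumData R K F π t B0 B1 O1 O2) : CohDatum π t B0 B1 :=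
  cohDatum_of_nodal D.model (injective_of_numData D) D.dvrR

theorem genericH0_of_numData (D : NodalNumData R K F π t B0 B1 O1 O2) : GenericH0 B0 B1 :=
  haveI := D.fracR
  genericH0_of_algClosed (K := K) (valDatum1 D.model) D.dvrR (cohDatum_of_numData D).pi_ne
    D.algClosed

theorem meet_of_numData (D : NodalNumData R K F π t B0 B1 O1 O2) :
    Meet π B0 O1 O2 ∨ Meet π B1 O1 O2 :=
  meet_of_connected D.model (cohDatum_of_numData D) (genericH0_of_numData D)

theorem specialH0_of_numData (D : NodalNumData R K F π t B0 B1 O1 O2)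
    (hκ1 : ResAlgClosed π O1) (hκ2 : ResAlgClosed π O2) : SpecialH0 π B0 B1 :=
  specialH0_of_nodal D.model D.dvrR hκ1 hκ2 (meet_of_numData D)

/-- **The Čech datum of Program N's nodal model.** -/
noncomputable def cechData_of_numData (D : NodalNumData R K F π t B0 B1 O1 O2)
    (hκ1 : ResAlgClosed π O1) (hκ2 : ResAlgClosed π O2) :
    Fermat.Agent.T1.CechFormal70.CechData R ↥B0 ↥B1 ↥(B0 ⊔ B1)
      ((cohDatum_of_numData D).genus (specialH0_of_numData D hκ1 hκ2)) :=
  (cohDatum_of_numData D).cechData (genericH0_of_numData D) (specialH0_of_numData D hκ1 hκ2)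

/-- **`H⁰(O_{X_{R'}}) = R'` for the nodal hub chart of Program N's model**, every `R`-algebra
`R'`. -/
theorem h0Const_of_numData (D : NodalNumData R K F π t B0 B1 O1 O2)
    (hκ1 : ResAlgClosed π O1) (hκ2 : ResAlgClosed π O2)
    (R' : Type u) [CommRing R'] [Algebra R R'] :
    letI := algebra0 B0 B1
    letI := algebra1 B0 B1
    haveI := isScalarTower0 B0 B1
    haveI := isScalarTower1 B0 B1
    Fermat.Agent.T1.Red68.H0Const ((nodalChart D.model).baseChange R') :=
  h0Const_baseChange (cohDatum_of_numData D) (genericH0_of_numData D)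
    (specialH0_of_numData D hκ1 hκ2) (nodalChart D.model) R'

end

end Fermat.Agent.T1B.NodalCoh30
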