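/-
T1B brick N-COH (helper30), file 5: the hypothesis `Meet` of `specialH0_of_nodal` is AUTOMATIC.

Zariski connectedness (`RED.CORE.CechConnected14.special_fibre_connected`: `H⁰ = R` on the generic
fibre + bounded torsion of `H¹` ⇒ the special fibre is connected) shows that the two components
of the special fibre of a nodal two-chart model meet on `Spec B0` or on `Spec B1`:
if `B0 ∩ π O1 + B0 ∩ π O2 = B0` and the same on `B1`, the two decompositions of `1` glue to an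
idempotent modulo `π`, which lifts modulo `π ^ (c + 1)` by Newton's iteration `e ↦ 3e² - 2e³`
and is then trivial modulo `π` — absurd.
-/
import Mathlib
import Fermat.Agent.T1B.NodalCoh30.Nodal

set_option autoImplicit false
set_option linter.unusedSectionVars false
set_option linter.style.haveILetI false

namespace Fermat.Agent.T1B.NodalCoh30

open Polynomial Fermat.Agent.T1.ModelCoh30 Fermat.Agent.ES.N34.NodalCore13

variable {R F : Type*} [CommRing R] [Field F] [Algebra R F]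
variable {π : R} {t : F} {B0 B1 : Subalgebra R F} {O1 O2 : ValuationSubring F}

/-- `π O ∩ R = π R` for a vertical valuation ring. -/
theorem ValDatum.dvd_of_mem_pi {O : ValuationSubring F} (V : ValDatum π t B0 B1 O)
    (hinj : Function.Injective (algebraMap R F))
    (dvrR : ∀ r : R, r ≠ 0 → ∃ (k : ℕ) (v : Rˣ), r = π ^ k * v) (r : R)
    (h : ∃ c ∈ O, algebraMap R F r = algebraMap R F π * c) : π ∣ r := by
  haveI : IsDomain R := Function.Injective.isDomain (algebraMap R F) hinj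
  obtain ⟨c, hc, hrc⟩ := h
  by_cases hr0 : r = 0
  · subst hr0
    exact dvd_zero _
  obtain ⟨k, u, rfl⟩ := dvrR r hr0
  rcases Nat.eq_zero_or_pos k with hk | hk
  · exfalso
    subst hk
    rw [pow_zero, one_mul] at hrc
    have hu0 : algebraMap R F (u : R) ≠ 0 := fun h0 =>
      u.ne_zero (hinj (by rw [h0, map_zero]))
    have hui : (algebraMap R F (u : R))⁻¹ ∈ O := by
      have h : (algebraMap R F (u : R))⁻¹ = algebraMap R F ((u⁻¹ : Rˣ) : R) := by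
        apply inv_eq_of_mul_eq_one_right
        rw [← map_mul, Units.mul_inv, map_one]
      rw [h]
      exact V.algebraMap_mem _
    refine V.not_pi_mul_eq_one (O.mul_mem _ _ hc hui) ?_
    rw [← mul_assoc, ← hrc, mul_inv_cancel₀ hu0]
  · obtain ⟨k', rfl⟩ : ∃ k', k = k' + 1 := ⟨k - 1, by omega⟩
    exact ⟨π ^ k' * u, by rw [pow_succ]; ring⟩

/-- the overlap is `π`-saturated in `O1 ⊓ O2`. -/
theorem sat01_nodal (N : NodalTwoChartModel R F π t B0 B1 O1 O2) (D : CohDatum π t B0 B1) :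
    ∀ b ∈ B0 ⊔ B1, ∀ c : F, c ∈ O1 → c ∈ O2 → b = algebraMap R F π * c → c ∈ B0 ⊔ B1 := by
  intro b hb c hc1 hc2 hbc
  obtain ⟨k, hk⟩ := D.mem_sup_iff0.1 hb
  rw [D.mem_sup_iff0]
  refine ⟨k, N.sat0 _ hk (t ^ k * c)
    (O1.mul_mem _ _ (O1.pow_mem (N.le_O1_0 t N.t_mem) k) hc1)
    (O2.mul_mem _ _ (O2.pow_mem (N.le_O2_0 t N.t_mem) k) hc2) ?_⟩
  rw [hbc]
  ring

section Newton

variable (p : F) (B0 B1 : Subalgebra R F)

/-- a pair of chart functions glued modulo `p ^ n` and idempotent modulo `p ^ n`. -/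
def Glued (n : ℕ) (e0 e1 : F) : Prop :=
  e0 ∈ B0 ∧ e1 ∈ B1 ∧ (∃ x ∈ B0 ⊔ B1, e0 - e1 = p ^ n * x) ∧
    (∃ b ∈ B0, e0 * e0 - e0 = p ^ n * b) ∧ (∃ b ∈ B1, e1 * e1 - e1 = p ^ n * b)

variable {p B0 B1}

theorem two_mem (B : Subalgebra R F) : (2 : F) ∈ B := by
  have : (2 : F) = algebraMap R F 2 := (map_ofNat (algebraMap R F) 2).symm
  rw [this]
  exact B.algebraMap_mem 2

theorem ofNat_mem (B : Subalgebra R F) (m : ℕ) [m.AtLeastTwo] : (OfNat.ofNat m : F) ∈ B := by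
  have : (OfNat.ofNat m : F) = algebraMap R F (OfNat.ofNat m) :=
    (map_ofNat (algebraMap R F) m).symm
  rw [this]
  exact B.algebraMap_mem _

/-- Newton step for idempotents: `e ↦ 3e² - 2e³` doubles the precision. -/
theorem Glued.newton (hp0 : p ∈ B0) (_hp1 : p ∈ B1) {n : ℕ} {e0 e1 : F}
    (h : Glued p B0 B1 n e0 e1) :
    Glued p B0 B1 (n + n) (3 * e0 ^ 2 - 2 * e0 ^ 3) (3 * e1 ^ 2 - 2 * e1 ^ 3) ∧
      ∃ b ∈ B0, (3 * e0 ^ 2 - 2 * e0 ^ 3) - e0 = p ^ n * b := by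
  obtain ⟨he0, he1, ⟨x, hx, hδ⟩, ⟨b0, hb0, hu0⟩, ⟨b1, hb1, hu1⟩⟩ := h
  have h3 : ∀ B : Subalgebra R F, (3 : F) ∈ B := fun B => ofNat_mem B 3
  have h2 : ∀ B : Subalgebra R F, (2 : F) ∈ B := fun B => ofNat_mem B 2
  have h4 : ∀ B : Subalgebra R F, (4 : F) ∈ B := fun B => ofNat_mem B 4
  have h6 : ∀ B : Subalgebra R F, (6 : F) ∈ B := fun B => ofNat_mem B 6
  have hle0 : B0 ≤ B0 ⊔ B1 := le_sup_left
  have hle1 : B1 ≤ B0 ⊔ B1 := le_sup_right
  refine ⟨⟨?_, ?_, ?_, ?_, ?_⟩, ?_⟩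
  · exact B0.sub_mem (B0.mul_mem (h3 B0) (B0.pow_mem he0 2)) (B0.mul_mem (h2 B0) (B0.pow_mem he0 3))
  · exact B1.sub_mem (B1.mul_mem (h3 B1) (B1.pow_mem he1 2)) (B1.mul_mem (h2 B1) (B1.pow_mem he1 3))
  · -- gluing
    refine ⟨x * (-6 * b1 + x * (3 - 6 * e1 - 2 * (p ^ n * x))), ?_, ?_⟩
    · refine (B0 ⊔ B1).mul_mem hx ((B0 ⊔ B1).add_mem
        ((B0 ⊔ B1).mul_mem ((B0 ⊔ B1).neg_mem (h6 _)) (hle1 hb1))
        ((B0 ⊔ B1).mul_mem hx ((B0 ⊔ B1).sub_mem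
          ((B0 ⊔ B1).sub_mem (h3 _) ((B0 ⊔ B1).mul_mem (h6 _) (hle1 he1)))
          ((B0 ⊔ B1).mul_mem (h2 _) ((B0 ⊔ B1).mul_mem
            ((B0 ⊔ B1).pow_mem (hle0 hp0) n) hx)))))
    · have he0' : e0 = e1 + p ^ n * x := by rw [← hδ]; ring
      rw [he0', pow_add]
      linear_combination (-6 * p ^ n * x) * hu1
  · -- idempotency on chart 0
    refine ⟨b0 * b0 * (4 * e0 ^ 2 - 4 * e0 - 3), ?_, ?_⟩
    · exact B0.mul_mem (B0.mul_mem hb0 hb0) (B0.sub_mem (B0.sub_mem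
        (B0.mul_mem (h4 B0) (B0.pow_mem he0 2)) (B0.mul_mem (h4 B0) he0)) (h3 B0))
    · rw [pow_add]
      linear_combination ((e0 * e0 - e0 + p ^ n * b0) * (4 * e0 ^ 2 - 4 * e0 - 3)) * hu0
  · -- idempotency on chart 1
    refine ⟨b1 * b1 * (4 * e1 ^ 2 - 4 * e1 - 3), ?_, ?_⟩
    · exact B1.mul_mem (B1.mul_mem hb1 hb1) (B1.sub_mem (B1.sub_mem
        (B1.mul_mem (h4 B1) (B1.pow_mem he1 2)) (B1.mul_mem (h4 B1) he1)) (h3 B1))
    · rw [pow_add]
      linear_combination ((e1 * e1 - e1 + p ^ n * b1) * (4 * e1 ^ 2 - 4 * e1 - 3)) * hu1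
  · -- the step is trivial modulo `p ^ n`
    refine ⟨-((2 * e0 - 1) * b0), B0.neg_mem (B0.mul_mem
      (B0.sub_mem (B0.mul_mem (h2 B0) he0) B0.one_mem) hb0), ?_⟩
    linear_combination (-(2 * e0 - 1)) * hu0

theorem Glued.mono (hp0 : p ∈ B0) (hp1 : p ∈ B1) {n m : ℕ} (hmn : m ≤ n) {e0 e1 : F}
    (h : Glued p B0 B1 n e0 e1) : Glued p B0 B1 m e0 e1 := by
  obtain ⟨he0, he1, ⟨x, hx, hδ⟩, ⟨b0, hb0, hu0⟩, ⟨b1, hb1, hu1⟩⟩ := h
  obtain ⟨d, rfl⟩ := Nat.exists_eq_add_of_le hmn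
  have hle0 : B0 ≤ B0 ⊔ B1 := le_sup_left
  refine ⟨he0, he1, ⟨p ^ d * x, (B0 ⊔ B1).mul_mem ((B0 ⊔ B1).pow_mem (hle0 hp0) d) hx, ?_⟩,
    ⟨p ^ d * b0, B0.mul_mem (B0.pow_mem hp0 d) hb0, ?_⟩,
    ⟨p ^ d * b1, B1.mul_mem (B1.pow_mem hp1 d) hb1, ?_⟩⟩
  · rw [hδ, pow_add]; ring
  · rw [hu0, pow_add]; ring
  · rw [hu1, pow_add]; ring

/-- lifting an idempotent modulo `p` to any precision, without changing it modulo `p`. -/
theorem Glued.lift (hp0 : p ∈ B0) (hp1 : p ∈ B1) {e0 e1 : F} (h : Glued p B0 B1 1 e0 e1)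
    (n : ℕ) : ∃ e0' e1' : F, Glued p B0 B1 (n + 1) e0' e1' ∧ ∃ b ∈ B0, e0' - e0 = p * b := by
  induction n with
  | zero => exact ⟨e0, e1, h, 0, B0.zero_mem, by ring⟩
  | succ n ih =>
    obtain ⟨e0', e1', hg, b, hb, hbe⟩ := ih
    obtain ⟨hg2, b', hb', hbe'⟩ := hg.newton hp0 hp1
    refine ⟨_, _, hg2.mono hp0 hp1 (by omega), b + p ^ n * b',
      B0.add_mem hb (B0.mul_mem (B0.pow_mem hp0 n) hb'), ?_⟩
    have : 3 * e0' ^ 2 - 2 * e0' ^ 3 - e0 = (3 * e0' ^ 2 - 2 * e0' ^ 3 - e0') + (e0' - e0) := by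
      ring
    rw [this, hbe, hbe', pow_succ]
    ring

end Newton

/-- **The two components of the special fibre of a nodal two-chart model meet** (Zariski
connectedness). -/
theorem meet_of_connected (N : NodalTwoChartModel R F π t B0 B1 O1 O2)
    (D : CohDatum π t B0 B1) (h0 : GenericH0 B0 B1) :
    Meet π B0 O1 O2 ∨ Meet π B1 O1 O2 := by
  haveI := N.noethR
  haveI := D.isDomain
  have V1 := valDatum1 N
  have V2 := valDatum2 N
  set p : F := algebraMap R F π with hp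
  have hp0 : p ∈ B0 := B0.algebraMap_mem π
  have hp1 : p ∈ B1 := B1.algebraMap_mem π
  by_contra hcon
  rw [not_or] at hcon
  obtain ⟨hm0, hm1⟩ := hcon
  -- the two decompositions of `1`
  simp only [Meet, not_forall, not_not] at hm0 hm1
  obtain ⟨a1, ha1, a2, ha2, ⟨c1, hc1, hac1⟩, ⟨c2, hc2, hac2⟩, hsum⟩ := hm0
  obtain ⟨a1', ha1', a2', ha2', ⟨c1', hc1', hac1'⟩, ⟨c2', hc2', hac2'⟩, hsum'⟩ := hm1
  -- connectedness
  obtain ⟨r, e, he, hgen⟩ := D.fin0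
  obtain ⟨Nn, hN⟩ := D.exists_uniform_exponent e he
  have hπunit : ¬ IsUnit π := V1.pi_not_isUnit
  obtain ⟨c, hconn⟩ := Fermat.Agent.RED.CORE.CechConnected14.special_fibre_connected π t t⁻¹
    (mul_inv_cancel₀ D.t_ne) B0 B1 (B0 ⊔ B1) D.t_mem D.tinv_mem e he hgen
    (fun x hx => D.mem_sup_iff0.1 hx) Nn hN h0
    (fun a ⟨b, hb, hab⟩ => V1.dvd_of_mem_pi D.inj D.dvrR a ⟨b, N.le_O1_0 b hb, hab⟩)
    (by
      intro a hdvd
      by_contra hna
      rw [not_or] at hna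
      obtain ⟨hna1, hna2⟩ := hna
      have ha0 : a ≠ 0 := fun h => hna1 (h ▸ dvd_zero _)
      have ha10 : a - 1 ≠ 0 := fun h => hna2 (h ▸ dvd_zero _)
      obtain ⟨k, u, hu⟩ := D.dvrR a ha0
      obtain ⟨l, v, hv⟩ := D.dvrR (a - 1) ha10
      have hk : k = 0 := by
        by_contra hk
        obtain ⟨k', rfl⟩ : ∃ k', k = k' + 1 := ⟨k - 1, by omega⟩
        exact hna1 ⟨π ^ k' * u, by rw [hu, pow_succ]; ring⟩
      have hl : l = 0 := by
        by_contra hl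
        obtain ⟨l', rfl⟩ : ∃ l', l = l' + 1 := ⟨l - 1, by omega⟩
        exact hna2 ⟨π ^ l' * v, by rw [hv, pow_succ]; ring⟩
      subst hk hl
      rw [pow_zero, one_mul] at hu hv
      have : a * a - a = ((u * v : Rˣ) : R) := by
        rw [Units.val_mul, ← hu, ← hv]; ring
      rw [this] at hdvd
      exact hπunit (isUnit_of_dvd_unit hdvd (u * v).isUnit))
  -- the glued idempotent modulo `π`
  have hx12 : c1 - c1' = c2' - c2 := by
    apply mul_left_cancel₀ N.pi_ne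
    rw [← hp, mul_sub, mul_sub, ← hac1, ← hac1', ← hac2, ← hac2']
    linear_combination hsum - hsum'
  have hglue : Glued p B0 B1 1 a1 a1' := by
    refine ⟨ha1, ha1', ⟨c1 - c1', ?_, ?_⟩, ⟨-(c1 * a2), ?_, ?_⟩, ⟨-(c1' * a2'), ?_, ?_⟩⟩
    · refine sat01_nodal N D (a1 - a1')
        ((B0 ⊔ B1).sub_mem ((le_sup_left : B0 ≤ B0 ⊔ B1) ha1)
          ((le_sup_right : B1 ≤ B0 ⊔ B1) ha1')) _ (sub_mem hc1 hc1')
        (by rw [hx12]; exact sub_mem hc2' hc2) ?_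
      rw [hac1, hac1']; ring
    · rw [pow_one, hac1, hac1']; ring
    · have hz : c1 * a2 = a1 * c2 := by
        apply mul_left_cancel₀ N.pi_ne
        rw [← hp, ← mul_assoc, ← hac1, hac2]; ring
      refine B0.neg_mem (N.sat0 (a1 * a2) (B0.mul_mem ha1 ha2) (c1 * a2)
        (O1.mul_mem _ _ hc1 (N.le_O1_0 a2 ha2))
        (by rw [hz]; exact O2.mul_mem _ _ (N.le_O2_0 a1 ha1) hc2) ?_)
      rw [← hp, ← mul_assoc, ← hac1]
    · rw [pow_one]
      have : a1 * a1 - a1 = -(a1 * a2) := by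
        have : a2 = 1 - a1 := by rw [← hsum]; ring
        rw [this]; ring
      rw [this, hac1]; ring
    · have hz : c1' * a2' = a1' * c2' := by
        apply mul_left_cancel₀ N.pi_ne
        rw [← hp, ← mul_assoc, ← hac1', hac2']; ring
      refine B1.neg_mem (N.sat1 (a1' * a2') (B1.mul_mem ha1' ha2') (c1' * a2')
        (O1.mul_mem _ _ hc1' (N.le_O1_1 a2' ha2'))
        (by rw [hz]; exact O2.mul_mem _ _ (N.le_O2_1 a1' ha1') hc2') ?_)
      rw [← hp, ← mul_assoc, ← hac1']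
    · rw [pow_one]
      have : a1' * a1' - a1' = -(a1' * a2') := by
        have : a2' = 1 - a1' := by rw [← hsum']; ring
        rw [this]; ring
      rw [this, hac1']; ring
  obtain ⟨e0', e1', hg, b, hb, hbe⟩ := hglue.lift hp0 hp1 c
  obtain ⟨he0', he1', ⟨x, hx, hδ⟩, ⟨b0, hb0, hu0⟩, -⟩ := hg
  have hid : ∃ b ∈ B0, e0' * e0' - e0' = p * b :=
    ⟨p ^ c * b0, B0.mul_mem (B0.pow_mem hp0 c) hb0, by rw [hu0, pow_succ]; ring⟩
  rcases hconn e0' e1' x he0' he1' hx hδ hid with ⟨d, hd, hed⟩ | ⟨d, hd, hed⟩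
  · -- `a1 ∈ π B0 ⊆ π O2`, so `1 = a1 + a2 ∈ π O2`
    have ha1p : a1 = p * (d - b) := by
      have : a1 = e0' - p * b := by rw [← hbe]; ring
      rw [this, hed]; ring
    refine V2.not_pi_mul_eq_one (c := (d - b) + c2)
      (add_mem (N.le_O2_0 _ (B0.sub_mem hd hb)) hc2) ?_
    rw [← hp, mul_add, ← ha1p, ← hac2, hsum]
  · -- `a1 - 1 ∈ π B0`, so `a2 ∈ π B0 ⊆ π O1` and `1 ∈ π O1`
    have ha2p : a2 = p * (b - d) := by
      have h1 : a2 = 1 - a1 := by rw [← hsum]; ring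
      have h2 : a1 = e0' - p * b := by rw [← hbe]; ring
      have h3 : e0' = 1 + p * d := by rw [← hed]; ring
      rw [h1, h2, h3]; ring
    refine V1.not_pi_mul_eq_one (c := c1 + (b - d))
      (add_mem hc1 (N.le_O1_0 _ (B0.sub_mem hb hd))) ?_
    rw [← hp, mul_add, ← hac1, ← ha2p, hsum]

/-- `SpecialH0` for the nodal model, WITHOUT the hypothesis `Meet`. -/
theorem specialH0_of_nodal' (N : NodalTwoChartModel R F π t B0 B1 O1 O2)
    (hinj : Function.Injective (algebraMap R F))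
    (dvrR : ∀ r : R, r ≠ 0 → ∃ (k : ℕ) (v : Rˣ), r = π ^ k * v)
    (h0 : GenericH0 B0 B1) (hκ1 : ResAlgClosed π O1) (hκ2 : ResAlgClosed π O2) :
    SpecialH0 π B0 B1 :=
  specialH0_of_nodal N dvrR hκ1 hκ2 (meet_of_connected N (cohDatum_of_nodal N hinj dvrR) h0)

/-- The Čech datum of the nodal model, WITHOUT the hypothesis `Meet`. -/
noncomputable def nodalCechData' (N : NodalTwoChartModel R F π t B0 B1 O1 O2)
    (hinj : Function.Injective (algebraMap R F))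
    (dvrR : ∀ r : R, r ≠ 0 → ∃ (k : ℕ) (v : Rˣ), r = π ^ k * v)
    (h0 : GenericH0 B0 B1) (hκ1 : ResAlgClosed π O1) (hκ2 : ResAlgClosed π O2) :
    Fermat.Agent.T1.CechFormal70.CechData R ↥B0 ↥B1 ↥(B0 ⊔ B1)
      ((cohDatum_of_nodal N hinj dvrR).genus (specialH0_of_nodal' N hinj dvrR h0 hκ1 hκ2)) :=
  (cohDatum_of_nodal N hinj dvrR).cechData h0 (specialH0_of_nodal' N hinj dvrR h0 hκ1 hκ2)

end Fermat.Agent.T1B.NodalCoh30
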