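/-
T1B brick N-COH (helper30), file 9: F4-d BALANCED (helper60's `Bal60`) INSTANTIATED ON THE NODAL HUB.

Inputs: helper23's `NodalFacts23.nodalGood_of_equiv` (hence also `nodalGood_self` and
`NodalBC23.Good.nodalGood_baseChange`, which are instances of it), my `Meet` (`meet_of_connected`),
helper60's `Bal60.quotComp`, `Bal60.balanced`, helper3's `RedN3.extInjective00`.

* `TransMod π O t`            : "`t mod π O` is transcendental over `R/π`" (the `htrans` of
                                `Coh60.ModelLine`), with `TransMod.inv`, `TransMod.comap`,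
                                `TransMod.of_ringHom`, `transMod_of_red`;
* `transMod_gaussVS`, `transMod_gaussVS_tq` : `TransMod` for a Gauss valuation ring (generic `Kt`,
                                `O'`, `E`; no model needed);
* `adj_of_equiv`, `connected_of_equiv` : `Bal60.Adj hg 0 1`, `Bal60.Connected hg` for
                                `hg = nodalGood_of_equiv ..` from `Meet` on the model over `O`;
* `compOfEquiv`               : the components `X i : Bal60.Comp (c0.baseChange O) (hg.P0 i) (hg.P1 i) K`;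
* `balanced_of_equiv`, `J1_le_P00_of_equiv`, `extInjective00_of_equiv` : the hub statements
                                `RedN3.Balanced c0 O hg (P00 hg X)`, `J1 ≤ P00`, `ExtInjective00`;
* `*_self`                    : the case `W = O` (`nodalGood_self`);
* `*_baseChange`              : the case of helper23's NODAL MODEL-BC (`nodalGood_baseChange`).
-/
import Mathlib
import Fermat.Agent.T1B.NodalCoh30.Connected
import Fermat.Agent.T1B.NodalCoh30.Hub
import Fermat.Agent.T1B.NodalFacts23.BaseChange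
import Fermat.Agent.T1B.NodalBC23.Good
import Fermat.Agent.T1B.Bal60.Hub
import Fermat.Agent.T1B.Bal60.Quot
import Fermat.Agent.T1B.RedN3.ExtInj00

set_option autoImplicit false
set_option linter.unusedSectionVars false
set_option linter.style.haveILetI false

universe u

open TensorProduct Polynomial

namespace Fermat.Agent.T1B.NodalCoh30

open Fermat.Agent.ES.N34.NodalCore13 Fermat.Agent.Jac Fermat.Agent.T1B.RedN3
open Fermat.Agent.Jac.BaseChange75 Fermat.Agent.T1B.NodalFacts23 Fermat.Agent.T1B.Bal60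
open scoped Fermat.Agent.Jac.BaseChange75
open Fermat.Agent.T1.ModelCoh30 (ρ0 ρ1)
open Fermat.Agent.T1.Coh60 (algebra0 algebra1 isScalarTower0 isScalarTower1)

/-! ### Transcendence of the coordinate modulo `π` on a component -/

section Trans

variable {R F : Type*} [CommRing R] [Field F] [Algebra R F] {π : R}

/-- "`t mod π O` is transcendental over `R/π`": a polynomial relation of `t` modulo `π O` has all its
coefficients divisible by `π`. -/
def TransMod (π : R) (O : ValuationSubring F) (t : F) : Prop :=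
  ∀ p : R[X], (∃ c ∈ O, aeval t p = algebraMap R F π * c) → (C π : R[X]) ∣ p

/-- Transcendence of `t mod π` implies that of `t⁻¹ mod π` (`t` a unit of `O`). -/
theorem TransMod.inv {O : ValuationSubring F} {t : F} (h : TransMod π O t) (ht0 : t ≠ 0)
    (htO : t ∈ O) : TransMod π O t⁻¹ := by
  intro p hp
  obtain ⟨c, hc, hpc⟩ := hp
  letI : Invertible (t⁻¹ : F) := ⟨t, mul_inv_cancel₀ ht0, inv_mul_cancel₀ ht0⟩
  have hrev : aeval t (reverse p) * t⁻¹ ^ p.natDegree = aeval t⁻¹ p :=
    eval₂_reverse_mul_pow (algebraMap R F) (t⁻¹ : F) p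
  have h1 : aeval t (reverse p) = algebraMap R F π * (c * t ^ p.natDegree) := by
    have : aeval t (reverse p) = aeval t⁻¹ p * t ^ p.natDegree := by
      rw [← hrev, mul_assoc, ← mul_pow, inv_mul_cancel₀ ht0, one_pow, mul_one]
    rw [this, hpc, mul_assoc]
  have h2 := h (reverse p) ⟨_, O.mul_mem _ _ hc (O.pow_mem htO _), h1⟩
  rw [C_dvd_iff_dvd_coeff] at h2 ⊢
  intro i
  have := h2 (revAt p.natDegree i)
  rwa [coeff_reverse, revAt_invol] at this

/-- Transport along a ring endomorphism `w` of `F` fixing `R` (e.g. the Fricke involution):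
`O2 = O1.comap w`. -/
theorem TransMod.comap {O : ValuationSubring F} (w : F →+* F)
    (hR : ∀ r : R, w (algebraMap R F r) = algebraMap R F r) {t : F} (h : TransMod π O (w t)) :
    TransMod π (O.comap w) t := by
  intro p hp
  obtain ⟨c, hc, hpc⟩ := hp
  refine h p ⟨w c, hc, ?_⟩
  have hcomp : w.comp (algebraMap R F) = algebraMap R F := RingHom.ext hR
  have h1 : w (aeval t p) = aeval (w t) p := by
    rw [aeval_def, aeval_def, hom_eval₂, hcomp]
  rw [← h1, hpc, map_mul, hR]

/-- Pull-back along a ring homomorphism `β : F₀ → F` over `R` which reflects integrality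
(`β x ∈ O → x ∈ O₀`), e.g. a degeneracy map between function fields. -/
theorem TransMod.of_ringHom {F₀ : Type*} [Field F₀] [Algebra R F₀] {O₀ : ValuationSubring F₀}
    {O : ValuationSubring F} (β : F₀ →+* F)
    (hR : ∀ r : R, β (algebraMap R F₀ r) = algebraMap R F r)
    (hπ : algebraMap R F₀ π ≠ 0)
    (hβ : ∀ x : F₀, β x ∈ O → x ∈ O₀) {u : F₀} (h : TransMod π O₀ u) :
    TransMod π O (β u) := by
  intro p hp
  obtain ⟨c, hc, hpc⟩ := hp
  have hcomp : β.comp (algebraMap R F₀) = algebraMap R F := RingHom.ext hR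
  have h1 : β (aeval u p) = aeval (β u) p := by
    rw [aeval_def, aeval_def, hom_eval₂, hcomp]
  refine h p ⟨aeval u p * (algebraMap R F₀ π)⁻¹, hβ _ ?_, ?_⟩
  · have hπF : algebraMap R F π ≠ 0 := by
      rw [← hR]
      exact (map_ne_zero β).2 hπ
    have : β (aeval u p * (algebraMap R F₀ π)⁻¹) = c := by
      rw [map_mul, map_inv₀, h1, hpc, hR, mul_comm (algebraMap R F π), mul_assoc,
        mul_inv_cancel₀ hπF, mul_one]
    rw [this]
    exact hc
  · rw [mul_comm (aeval u p), ← mul_assoc, mul_inv_cancel₀ hπ, one_mul]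

/-- Abstract criterion: a reduction map `red : O → L` killing `π`, whose restriction `redR` to `R`
has kernel `π R`, and such that `red t` is transcendental over `redR R`
(model-free version of `Coh60.trans_of_red`). -/
theorem transMod_of_red {O : ValuationSubring F} (hO : ∀ r : R, algebraMap R F r ∈ O) {t : F}
    (htO : t ∈ O) {L : Type*} [CommRing L] (red : ↥O →+* L) (redR : R →+* L)
    (hred : ∀ r : R, red ⟨_, hO r⟩ = redR r) (hpi : redR π = 0)
    (hkerR : ∀ r : R, redR r = 0 → π ∣ r)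
    (htr : ∀ p : R[X], eval₂ redR (red ⟨t, htO⟩) p = 0 → ∀ i, redR (p.coeff i) = 0) :
    TransMod π O t := by
  intro p hp
  obtain ⟨c, hc, hpc⟩ := hp
  let φ : R →+* ↥O :=
    { toFun := fun r => ⟨algebraMap R F r, hO r⟩
      map_one' := Subtype.ext (map_one _)
      map_mul' := fun _ _ => Subtype.ext (map_mul _ _ _)
      map_zero' := Subtype.ext (map_zero _)
      map_add' := fun _ _ => Subtype.ext (map_add _ _ _) }
  have hφ : O.subtype.comp φ = algebraMap R F := by
    ext r
    rfl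
  have hcomp : red.comp φ = redR := by
    ext r
    exact hred r
  have hcoe : ((eval₂ φ ⟨t, htO⟩ p : ↥O) : F) = aeval t p := by
    have := hom_eval₂ p φ O.subtype ⟨t, htO⟩
    rw [hφ] at this
    rw [aeval_def]
    exact this
  have h1 : eval₂ φ ⟨t, htO⟩ p = φ π * ⟨c, hc⟩ := by
    apply Subtype.ext
    rw [hcoe]
    exact hpc
  have h2 : eval₂ redR (red ⟨t, htO⟩) p = 0 := by
    rw [← hcomp, ← hom_eval₂, h1, map_mul]
    have : red (φ π) = redR π := hred π
    rw [this, hpi, zero_mul]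
  rw [C_dvd_iff_dvd_coeff]
  exact fun i => hkerR _ (htr p h2 i)

end Trans

/-! ### Gauss valuation rings -/

section Gauss

open HahnSeries Fermat.Agent.RED.PUR.GaussGen8

attribute [local instance] Fermat.Agent.RED.NumInst4.isScalarTower_OE

variable {Kt : Type*} [Field Kt] {O' : ValuationSubring Kt}
  {E : IntermediateField Kt (LaurentSeries Kt)}

/-- `TransMod` for a Gauss valuation ring, when the reduction of the coordinate in `κ((q))` is
transcendental over `κ` (model-free version of `Coh60.trans_gaussVS`). -/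
theorem transMod_gaussVS {ϖ : O'} (hϖ : IsUnif O' ϖ) (hE : E ≤ fracField O') {t : E}
    (htO : t ∈ gaussVS hϖ E hE)
    (htr : Transcendental (Res O') (gaussVSRed hϖ E hE ⟨t, htO⟩)) :
    TransMod (R := ↥O') (F := ↥E) ϖ (gaussVS hϖ E hE) t := by
  have hcoe : ∀ a : O', ((algebraMap ↥O' ↥E a : E) : LaurentSeries Kt) =
      HahnSeries.C ((a : O') : Kt) := Fermat.Agent.RED.NumInst4.coe_algebraMap_OE O' E
  have hO : ∀ r : O', algebraMap ↥O' ↥E r ∈ gaussVS hϖ E hE := by
    intro r
    rw [mem_gaussVS_iff, hcoe]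
    exact C_mem O' r
  refine transMod_of_red hO htO (gaussVSRed hϖ E hE)
    ((HahnSeries.C : Res O' →+* LaurentSeries (Res O')).comp (res0 O')) ?_ ?_ ?_ ?_
  · intro r
    rw [gaussVSRed_apply]
    have : (⟨((⟨algebraMap ↥O' ↥E r, hO r⟩ : gaussVS hϖ E hE) : E),
        (mem_gaussVS_iff hϖ E hE _).mp (hO r)⟩ : gaussRing O') = constG O' r :=
      Subtype.ext (hcoe r)
    rw [this, gaussRed_constG]
    rfl
  · show HahnSeries.C (res0 O' ϖ) = 0
    rw [res0_unif hϖ, map_zero]
  · intro r hr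
    have h0 : res0 O' r = 0 := by
      have : (HahnSeries.C (res0 O' r) : LaurentSeries (Res O')) = HahnSeries.C 0 := by
        rw [map_zero]
        exact hr
      exact HahnSeries.C_injective this
    obtain ⟨x', hx'⟩ := (res0_eq_zero_iff hϖ r).1 h0
    exact ⟨x', hx'⟩
  · intro q hq i
    have halg : algebraMap (Res O') (LaurentSeries (Res O')) =
        (HahnSeries.C : Res O' →+* LaurentSeries (Res O')) := by
      ext1 c
      exact Fermat.Agent.RED.PUR.GaussGen8.algebraMap_eq_C c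
    have h1 : aeval (gaussVSRed hϖ E hE ⟨t, htO⟩) (q.map (res0 O')) = 0 := by
      rw [aeval_def, eval₂_map, halg]
      exact hq
    have h2 : q.map (res0 O') = 0 := by
      by_contra hne
      exact htr ⟨_, hne, h1⟩
    have h3 := congrArg (fun f => f.coeff i) h2
    simp only [Polynomial.coeff_map, Polynomial.coeff_zero] at h3
    show HahnSeries.C (res0 O' (q.coeff i)) = 0
    rw [h3, map_zero]

open Fermat.Agent.RED.BASE.EtaQuot12 Fermat.Agent.RED.BASE.TBridge15 in
/-- `TransMod` when the coordinate is the Hauptmodul series `tq Kt n e`. -/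
theorem transMod_gaussVS_tq {ϖ : O'} (hϖ : IsUnif O' ϖ) (hE : E ≤ fracField O') {t : E}
    (n e : ℕ) [NeZero n] (ht : ((t : E) : LaurentSeries Kt) = tq Kt n e) :
    TransMod (R := ↥O') (F := ↥E) ϖ (gaussVS hϖ E hE) t := by
  have hmem : tq Kt n e ∈ gaussRing O' := tq_mem_gaussRing O' n e
  have htO : t ∈ gaussVS hϖ E hE := by
    rw [mem_gaussVS_iff, ht]
    exact hmem
  refine transMod_gaussVS hϖ hE htO ?_
  rw [gaussVSRed_apply]
  have : (⟨((⟨t, htO⟩ : gaussVS hϖ E hE) : E),
      (mem_gaussVS_iff hϖ E hE _).mp htO⟩ : gaussRing O') = ⟨tq Kt n e, hmem⟩ :=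
    Subtype.ext ht
  rw [this, gaussRed_eq_tq]
  exact transcendental_tq (Res O') n e

end Gauss

/-! ### Finiteness of the two charts of the nodal model over the line -/

section Fin

variable {R F : Type u} [CommRing R] [Field F] [Algebra R F]
variable {π : R} {t : F} {B0 B1 : Subalgebra R F} {O1 O2 : ValuationSubring F}

theorem nodal_finite_chart0 (M : NodalTwoChartModel R F π t B0 B1 O1 O2) :
    Module.Finite R[X] (Module.AEval R ↥B0 (⟨t, M.t_mem⟩ : ↥B0)) := by
  obtain ⟨r, e, he, hgen⟩ := M.fin0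
  refine Fermat.Agent.T1.Coh60.finite_aeval_of_gens (⟨t, M.t_mem⟩ : ↥B0)
    (fun i => (⟨e i, he i⟩ : ↥B0)) (fun x => ?_)
  obtain ⟨P, hP⟩ := hgen x x.2
  refine ⟨P, Subtype.ext ?_⟩
  rw [hP]
  simp [← Subalgebra.aeval_coe]

theorem nodal_finite_chart1 (M : NodalTwoChartModel R F π t B0 B1 O1 O2)
    (fin1 : ∃ (r : ℕ) (e : Fin r → F), (∀ i, e i ∈ B1) ∧
      ∀ x ∈ B1, ∃ P : Fin r → R[X], x = ∑ i, aeval t⁻¹ (P i) * e i) :
    Module.Finite R[X] (Module.AEval R ↥B1 (⟨t⁻¹, M.tinv_mem⟩ : ↥B1)) := by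
  obtain ⟨r, e, he, hgen⟩ := fin1
  refine Fermat.Agent.T1.Coh60.finite_aeval_of_gens (⟨t⁻¹, M.tinv_mem⟩ : ↥B1)
    (fun i => (⟨e i, he i⟩ : ↥B1)) (fun x => ?_)
  obtain ⟨P, hP⟩ := hgen x x.2
  refine ⟨P, Subtype.ext ?_⟩
  rw [hP]
  simp [← Subalgebra.aeval_coe]

end Fin

/-! ### The general case: `hg = nodalGood_of_equiv ..` -/

section General

variable {W O : Type u} [CommRing W] [CommRing O] [Algebra W O]
  {B0 B1 B01 : Type u} [CommRing B0] [CommRing B1] [CommRing B01]
  [Algebra W B0] [Algebra W B1] [Algebra W B01] [Algebra B0 B01] [Algebra B1 B01]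
  [IsScalarTower W B0 B01] [IsScalarTower W B1 B01]
  {F' : Type u} [Field F'] [Algebra O F']
  {π' : O} {t' : F'} {B0' B1' : Subalgebra O F'} {O1' O2' : ValuationSubring F'}
  (c0 : TwoChart W B0 B1 B01)
  (M' : NodalTwoChartModel O F' π' t' B0' B1' O1' O2')
  (e0 : (O ⊗[W] B0) ≃ₐ[O] ↥B0') (e1 : (O ⊗[W] B1) ≃ₐ[O] ↥B1')
  (e01 : (O ⊗[W] B01) ≃ₐ[O] ↥(B0' ⊔ B1'))
  (h0 : ∀ x : O ⊗[W] B0, e01 (algebraMap (O ⊗[W] B0) (O ⊗[W] B01) x) = ρ0 B0' B1' (e0 x))
  (h1 : ∀ x : O ⊗[W] B1, e01 (algebraMap (O ⊗[W] B1) (O ⊗[W] B01) x) = ρ1 B0' B1' (e1 x))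

/-- **The two components are adjacent in the dual graph** (they meet on one of the two charts). -/
theorem adj_of_equiv (hmeet : Meet π' B0' O1' O2' ∨ Meet π' B1' O1' O2') :
    Adj (nodalGood_of_equiv c0 M' e0 e1 e01 h0 h1) 0 1 := by
  rcases hmeet with hm | hm
  · left
    intro htop
    have h1mem : (1 : O ⊗[W] B0) ∈ (nodalGood_of_equiv c0 M' e0 e1 e01 h0 h1).P0 0 ⊔
        (nodalGood_of_equiv c0 M' e0 e1 e01 h0 h1).P0 1 := by
      rw [htop]
      exact Submodule.mem_top
    obtain ⟨x, hx, y, hy, hxy⟩ := Submodule.mem_sup.1 h1mem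
    have hx' : ∃ c ∈ O1', ((e0 x : ↥B0') : F') = algebraMap O F' π' * c := hx
    have hy' : ∃ c ∈ O2', ((e0 y : ↥B0') : F') = algebraMap O F' π' * c := hy
    refine hm _ (e0 x).2 _ (e0 y).2 hx' hy' ?_
    rw [← Subalgebra.coe_add, ← map_add, hxy, map_one]
    rfl
  · right
    intro htop
    have h1mem : (1 : O ⊗[W] B1) ∈ (nodalGood_of_equiv c0 M' e0 e1 e01 h0 h1).P1 0 ⊔
        (nodalGood_of_equiv c0 M' e0 e1 e01 h0 h1).P1 1 := by
      rw [htop]
      exact Submodule.mem_top
    obtain ⟨x, hx, y, hy, hxy⟩ := Submodule.mem_sup.1 h1mem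
    have hx' : ∃ c ∈ O1', ((e1 x : ↥B1') : F') = algebraMap O F' π' * c := hx
    have hy' : ∃ c ∈ O2', ((e1 y : ↥B1') : F') = algebraMap O F' π' * c := hy
    refine hm _ (e1 x).2 _ (e1 y).2 hx' hy' ?_
    rw [← Subalgebra.coe_add, ← map_add, hxy, map_one]
    rfl

/-- **The dual graph of the special fibre is connected.** -/
theorem connected_of_equiv (hmeet : Meet π' B0' O1' O2' ∨ Meet π' B1' O1' O2') :
    Connected (nodalGood_of_equiv c0 M' e0 e1 e01 h0 h1) :=
  connected_fin2 _ (adj_of_equiv c0 M' e0 e1 e01 h0 h1 hmeet)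

/-- The transcendence test on chart `0`. -/
theorem htr0_of_equiv (he0 : ((e0 (c0.baseChange O).t : ↥B0') : F') = t') (i : Fin 2)
    (htr : TransMod π' (comp O1' O2' i) t') (q : O[X])
    (hq : aeval (c0.baseChange O).t q ∈ (nodalGood_of_equiv c0 M' e0 e1 e01 h0 h1).P0 i) :
    (C π' : O[X]) ∣ q := by
  obtain ⟨c, hc, hqc⟩ := hq
  refine htr q ⟨c, hc, ?_⟩
  rw [← hqc, ← he0, Subalgebra.aeval_coe]
  exact congrArg (fun b : ↥B0' => (b : F'))
    (Polynomial.aeval_algHom_apply (e0 : (O ⊗[W] B0) →ₐ[O] ↥B0') (c0.baseChange O).t q)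

/-- The transcendence test on chart `1`. -/
theorem htr1_of_equiv (he1 : ((e1 (c0.baseChange O).s : ↥B1') : F') = t'⁻¹) (i : Fin 2)
    (htr : TransMod π' (comp O1' O2' i) t') (q : O[X])
    (hq : aeval (c0.baseChange O).s q ∈ (nodalGood_of_equiv c0 M' e0 e1 e01 h0 h1).P1 i) :
    (C π' : O[X]) ∣ q := by
  obtain ⟨c, hc, hqc⟩ := hq
  refine (htr.inv M'.t_ne (t_mem_comp M' i)) q ⟨c, hc, ?_⟩
  rw [← hqc, ← he1, Subalgebra.aeval_coe]
  exact congrArg (fun b : ↥B1' => (b : F'))
    (Polynomial.aeval_algHom_apply (e1 : (O ⊗[W] B1) →ₐ[O] ↥B1') (c0.baseChange O).s q)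

/-- **The components of the special fibre** of the base-changed hub, as `Bal60.Comp`. -/
noncomputable def compOfEquiv (K : Type u) [Field K] [Algebra O K]
    (hK : Function.Surjective (algebraMap O K))
    (hKp : RingHom.ker (algebraMap O K) = Ideal.span {π'})
    (fin0 : Module.Finite W[X] (Module.AEval W B0 c0.t))
    (fin1 : Module.Finite W[X] (Module.AEval W B1 c0.s))
    (he0 : ((e0 (c0.baseChange O).t : ↥B0') : F') = t')
    (he1 : ((e1 (c0.baseChange O).s : ↥B1') : F') = t'⁻¹)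
    (htr : ∀ i : Fin 2, TransMod π' (comp O1' O2' i) t') (i : Fin 2) :
    Comp (c0.baseChange O) ((nodalGood_of_equiv c0 M' e0 e1 e01 h0 h1).P0 i)
      ((nodalGood_of_equiv c0 M' e0 e1 e01 h0 h1).P1 i) K :=
  quotComp (nodalGood_of_equiv c0 M' e0 e1 e01 h0 h1) i K hK hKp
    (finite_aeval_tensor O c0.t fin0) (finite_aeval_tensor O c0.s fin1)
    (htr0_of_equiv c0 M' e0 e1 e01 h0 h1 he0 i (htr i))
    (htr1_of_equiv c0 M' e0 e1 e01 h0 h1 he1 i (htr i))

/-- **F4-d on the nodal hub**: the multidegree-zero subgroup is balanced. -/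
theorem balanced_of_equiv (hmeet : Meet π' B0' O1' O2' ∨ Meet π' B1' O1' O2')
    {K : Type u} [Field K]
    (X : ∀ i, Comp (c0.baseChange O) ((nodalGood_of_equiv c0 M' e0 e1 e01 h0 h1).P0 i)
      ((nodalGood_of_equiv c0 M' e0 e1 e01 h0 h1).P1 i) K) :
    Balanced c0 O (nodalGood_of_equiv c0 M' e0 e1 e01 h0 h1)
      (P00 (nodalGood_of_equiv c0 M' e0 e1 e01 h0 h1) X) :=
  balanced c0 O _ (connected_of_equiv c0 M' e0 e1 e01 h0 h1 hmeet) X

/-- **`ExtInjective00` on the nodal hub**: `P00 → Pic X_L` is injective. -/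
theorem extInjective00_of_equiv [IsDomain O] [IsDiscreteValuationRing O]
    (L : Type u) [Field L] [Algebra W L] [Algebra O L] [IsScalarTower W O L] [IsFractionRing O L]
    (hπ : Irreducible π') (hH0 : Fermat.Agent.T1.Red68.H0Const (c0.baseChange O))
    (hmeet : Meet π' B0' O1' O2' ∨ Meet π' B1' O1' O2')
    {K : Type u} [Field K]
    (X : ∀ i, Comp (c0.baseChange O) ((nodalGood_of_equiv c0 M' e0 e1 e01 h0 h1).P0 i)
      ((nodalGood_of_equiv c0 M' e0 e1 e01 h0 h1).P1 i) K) :
    ExtInjective00 c0 O L (P00 (nodalGood_of_equiv c0 M' e0 e1 e01 h0 h1) X) :=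
  extInjective00 c0 O L hπ _ hH0 _ (balanced_of_equiv c0 M' e0 e1 e01 h0 h1 hmeet X)

/-- **`J¹ ≤ P00` on the nodal hub.** -/
theorem J1_le_P00_of_equiv [IsDomain O] [IsDiscreteValuationRing O] (hπ : Irreducible π')
    {K : Type u} [Field K]
    (X : ∀ i, Comp (c0.baseChange O) ((nodalGood_of_equiv c0 M' e0 e1 e01 h0 h1).P0 i)
      ((nodalGood_of_equiv c0 M' e0 e1 e01 h0 h1).P1 i) K) :
    Fermat.Agent.T1.RedIface75.J1 c0 O ≤ P00 (nodalGood_of_equiv c0 M' e0 e1 e01 h0 h1) X :=
  J1_le_P00 c0 O _ X ((IsDiscreteValuationRing.irreducible_iff_uniformizer π').1 hπ)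

/-- The components over the residue field `κ(O)` of the discrete valuation ring `O`. -/
noncomputable def compOfEquivRes [IsDomain O] [IsDiscreteValuationRing O] (hπ : Irreducible π')
    (fin0 : Module.Finite W[X] (Module.AEval W B0 c0.t))
    (fin1 : Module.Finite W[X] (Module.AEval W B1 c0.s))
    (he0 : ((e0 (c0.baseChange O).t : ↥B0') : F') = t')
    (he1 : ((e1 (c0.baseChange O).s : ↥B1') : F') = t'⁻¹)
    (htr : ∀ i : Fin 2, TransMod π' (comp O1' O2' i) t') (i : Fin 2) :
    Comp (c0.baseChange O) ((nodalGood_of_equiv c0 M' e0 e1 e01 h0 h1).P0 i)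
      ((nodalGood_of_equiv c0 M' e0 e1 e01 h0 h1).P1 i) (IsLocalRing.ResidueField O) :=
  compOfEquiv c0 M' e0 e1 e01 h0 h1 (IsLocalRing.ResidueField O)
    IsLocalRing.residue_surjective
    (by
      rw [← (IsDiscreteValuationRing.irreducible_iff_uniformizer π').1 hπ]
      exact IsLocalRing.ker_residue)
    fin0 fin1 he0 he1 htr i

end General

/-! ### The case `W = O` -/

section Self

variable {R F : Type u} [CommRing R] [Field F] [Algebra R F]
variable {π : R} {t : F} {B0 B1 : Subalgebra R F} {O1 O2 : ValuationSubring F}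

attribute [local instance] algebra0 algebra1 isScalarTower0 isScalarTower1

theorem lid_t (M : NodalTwoChartModel R F π t B0 B1 O1 O2) :
    ((Algebra.TensorProduct.lid R ↥B0 ((nodalChart M).baseChange R).t : ↥B0) : F) = t := by
  rw [baseChange_t, Algebra.TensorProduct.lid_tmul, one_smul]
  rfl

theorem lid_s (M : NodalTwoChartModel R F π t B0 B1 O1 O2) :
    ((Algebra.TensorProduct.lid R ↥B1 ((nodalChart M).baseChange R).s : ↥B1) : F) = t⁻¹ := by
  rw [baseChange_s, Algebra.TensorProduct.lid_tmul, one_smul]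
  rfl

/-- The dual graph of `nodalGood_self M` is connected. -/
theorem connected_self (M : NodalTwoChartModel R F π t B0 B1 O1 O2)
    (hmeet : Meet π B0 O1 O2 ∨ Meet π B1 O1 O2) : Connected (nodalGood_self M) :=
  connected_of_equiv (nodalChart M) M (Algebra.TensorProduct.lid R ↥B0)
    (Algebra.TensorProduct.lid R ↥B1) (Algebra.TensorProduct.lid R ↥(B0 ⊔ B1))
    lid_compat0 lid_compat1 hmeet

/-- The components of `nodalGood_self M`. -/
noncomputable def compSelf (M : NodalTwoChartModel R F π t B0 B1 O1 O2)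
    (κ : Type u) [Field κ] [Algebra R κ] (hκ : Function.Surjective (algebraMap R κ))
    (hκp : RingHom.ker (algebraMap R κ) = Ideal.span {π})
    (fin1 : ∃ (r : ℕ) (e : Fin r → F), (∀ i, e i ∈ B1) ∧
      ∀ x ∈ B1, ∃ P : Fin r → R[X], x = ∑ i, aeval t⁻¹ (P i) * e i)
    (htr : ∀ i : Fin 2, TransMod π (comp O1 O2 i) t) (i : Fin 2) :
    Comp ((nodalChart M).baseChange R) ((nodalGood_self M).P0 i) ((nodalGood_self M).P1 i) κ :=
  compOfEquiv (nodalChart M) M (Algebra.TensorProduct.lid R ↥B0)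
    (Algebra.TensorProduct.lid R ↥B1) (Algebra.TensorProduct.lid R ↥(B0 ⊔ B1))
    lid_compat0 lid_compat1 κ hκ hκp (nodal_finite_chart0 M) (nodal_finite_chart1 M fin1)
    (lid_t M) (lid_s M) htr i

/-- **F4-d for `nodalGood_self M`.** -/
theorem balanced_self (M : NodalTwoChartModel R F π t B0 B1 O1 O2)
    (hmeet : Meet π B0 O1 O2 ∨ Meet π B1 O1 O2) {κ : Type u} [Field κ]
    (X : ∀ i, Comp ((nodalChart M).baseChange R) ((nodalGood_self M).P0 i)
      ((nodalGood_self M).P1 i) κ) :
    Balanced (nodalChart M) R (nodalGood_self M) (P00 (nodalGood_self M) X) :=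
  balanced (nodalChart M) R _ (connected_self M hmeet) X

/-- **`ExtInjective00` for `nodalGood_self M`.** -/
theorem extInjective00_self [IsDomain R] [IsDiscreteValuationRing R]
    (M : NodalTwoChartModel R F π t B0 B1 O1 O2)
    (L : Type u) [Field L] [Algebra R L] [IsFractionRing R L]
    (hπ : Irreducible π) (hH0 : Fermat.Agent.T1.Red68.H0Const ((nodalChart M).baseChange R))
    (hmeet : Meet π B0 O1 O2 ∨ Meet π B1 O1 O2) {κ : Type u} [Field κ]
    (X : ∀ i, Comp ((nodalChart M).baseChange R) ((nodalGood_self M).P0 i)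
      ((nodalGood_self M).P1 i) κ) :
    ExtInjective00 (nodalChart M) R L (P00 (nodalGood_self M) X) :=
  extInjective00 (nodalChart M) R L hπ _ hH0 _ (balanced_self M hmeet X)

end Self

/-! ### The case of NODAL MODEL-BC (`NodalBC23`) -/

section BC

open Fermat.Agent.T1.ModelBC51.Abstract Fermat.Agent.T1B.NodalBC23.Abstract
  Fermat.Agent.T1B.NodalBC23.Model Fermat.Agent.T1B.NodalBC23.Good

variable {R F R' F' : Type u} {K L : Type*} [CommRing R] [Field K] [Field F] [Algebra R K]
  [Algebra K F] [Algebra R F] [IsScalarTower R K F]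
  [CommRing R'] [Field L] [Field F'] [Algebra R' L] [Algebra L F'] [Algebra R' F']
  [IsScalarTower R' L F']
variable {π : R} {π' : R'} {O1 O2 : ValuationSubring F} {O1' O2' : ValuationSubring F'}
  (D : BCData K L π π' O1 O1')
  {t : F} {B0 B1 : Subalgebra R F} {B0' B1' : Subalgebra R' F'}
  (hK : NodalTwoChartModel R F π t B0 B1 O1 O2)
  (hL : NodalTwoChartModel R' F' π' (D.iF t) B0' B1' O1' O2')
  [IsFractionRing R K] [IsFractionRing R' L]
  (dvrR : ∀ r : R, r ≠ 0 → ∃ (k : ℕ) (v : Rˣ), r = π ^ k * v)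
  (dvrR' : ∀ r : R', r ≠ 0 → ∃ (k : ℕ) (v : R'ˣ), r = π' ^ k * v)
  (hld2 : LD2 D O2 O2')
  [Algebra R R'] (halg : ∀ r : R, algebraMap R R' r = D.iR r) [CharZero K]

attribute [local instance] algebra0 algebra1 isScalarTower0 isScalarTower1

/-- The dual graph of `nodalGood_baseChange` is connected. -/
theorem connected_baseChange (hmeet : Meet π' B0' O1' O2' ∨ Meet π' B1' O1' O2') :
    Connected (nodalGood_baseChange D hK hL dvrR dvrR' hld2 halg) :=
  connected_of_equiv (nodalChart hK) hL (equiv0 D hK hL dvrR dvrR' hld2 halg)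
    (equiv1 D hK hL dvrR dvrR' hld2 halg) (equiv01 D hK hL dvrR dvrR' hld2 halg)
    (compat0 D hK hL dvrR dvrR' hld2 halg) (compat1 D hK hL dvrR dvrR' hld2 halg) hmeet

/-- The components of `nodalGood_baseChange`. -/
noncomputable def compBaseChange (κ : Type u) [Field κ] [Algebra R' κ]
    (hκ : Function.Surjective (algebraMap R' κ))
    (hκp : RingHom.ker (algebraMap R' κ) = Ideal.span {π'})
    (fin1 : ∃ (r : ℕ) (e : Fin r → F), (∀ i, e i ∈ B1) ∧
      ∀ x ∈ B1, ∃ P : Fin r → R[X], x = ∑ i, aeval t⁻¹ (P i) * e i)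
    (htr : ∀ i : Fin 2, TransMod π' (comp O1' O2' i) (D.iF t)) (i : Fin 2) :
    Comp ((nodalChart hK).baseChange R')
      ((nodalGood_baseChange D hK hL dvrR dvrR' hld2 halg).P0 i)
      ((nodalGood_baseChange D hK hL dvrR dvrR' hld2 halg).P1 i) κ :=
  compOfEquiv (nodalChart hK) hL (equiv0 D hK hL dvrR dvrR' hld2 halg)
    (equiv1 D hK hL dvrR dvrR' hld2 halg) (equiv01 D hK hL dvrR dvrR' hld2 halg)
    (compat0 D hK hL dvrR dvrR' hld2 halg) (compat1 D hK hL dvrR dvrR' hld2 halg) κ hκ hκp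
    (nodal_finite_chart0 hK) (nodal_finite_chart1 hK fin1)
    (coe_equiv0_t D hK hL dvrR dvrR' hld2 halg) (coe_equiv1_tinv D hK hL dvrR dvrR' hld2 halg)
    htr i

/-- The components of `nodalGood_baseChange` over the residue field of the DVR `R'`. -/
noncomputable def compBaseChangeRes [IsDomain R'] [IsDiscreteValuationRing R']
    (hπ' : Irreducible π')
    (fin1 : ∃ (r : ℕ) (e : Fin r → F), (∀ i, e i ∈ B1) ∧
      ∀ x ∈ B1, ∃ P : Fin r → R[X], x = ∑ i, aeval t⁻¹ (P i) * e i)
    (htr : ∀ i : Fin 2, TransMod π' (comp O1' O2' i) (D.iF t)) (i : Fin 2) :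
    Comp ((nodalChart hK).baseChange R')
      ((nodalGood_baseChange D hK hL dvrR dvrR' hld2 halg).P0 i)
      ((nodalGood_baseChange D hK hL dvrR dvrR' hld2 halg).P1 i) (IsLocalRing.ResidueField R') :=
  compBaseChange D hK hL dvrR dvrR' hld2 halg (IsLocalRing.ResidueField R')
    IsLocalRing.residue_surjective
    (by
      rw [← (IsDiscreteValuationRing.irreducible_iff_uniformizer π').1 hπ']
      exact IsLocalRing.ker_residue)
    fin1 htr i

/-- **F4-d for `nodalGood_baseChange`.** -/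
theorem balanced_baseChange (hmeet : Meet π' B0' O1' O2' ∨ Meet π' B1' O1' O2')
    {κ : Type u} [Field κ]
    (X : ∀ i, Comp ((nodalChart hK).baseChange R')
      ((nodalGood_baseChange D hK hL dvrR dvrR' hld2 halg).P0 i)
      ((nodalGood_baseChange D hK hL dvrR dvrR' hld2 halg).P1 i) κ) :
    Balanced (nodalChart hK) R' (nodalGood_baseChange D hK hL dvrR dvrR' hld2 halg)
      (P00 (nodalGood_baseChange D hK hL dvrR dvrR' hld2 halg) X) :=
  balanced (nodalChart hK) R' _ (connected_baseChange D hK hL dvrR dvrR' hld2 halg hmeet) X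

/-- **`ExtInjective00` for `nodalGood_baseChange`**: with `hH0` from `nodal_h0Const hK ..` (or
`h0Const_of_numData`, `gauss_h0Const`). -/
theorem extInjective00_baseChange [IsDomain R'] [IsDiscreteValuationRing R']
    (L' : Type u) [Field L'] [Algebra R L'] [Algebra R' L'] [IsScalarTower R R' L']
    [IsFractionRing R' L']
    (hπ' : Irreducible π')
    (hH0 : Fermat.Agent.T1.Red68.H0Const ((nodalChart hK).baseChange R'))
    (hmeet : Meet π' B0' O1' O2' ∨ Meet π' B1' O1' O2') {κ : Type u} [Field κ]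
    (X : ∀ i, Comp ((nodalChart hK).baseChange R')
      ((nodalGood_baseChange D hK hL dvrR dvrR' hld2 halg).P0 i)
      ((nodalGood_baseChange D hK hL dvrR dvrR' hld2 halg).P1 i) κ) :
    ExtInjective00 (nodalChart hK) R' L'
      (P00 (nodalGood_baseChange D hK hL dvrR dvrR' hld2 halg) X) :=
  extInjective00 (nodalChart hK) R' L' hπ' _ hH0 _
    (balanced_baseChange D hK hL dvrR dvrR' hld2 halg hmeet X)

/-- **`J¹ ≤ P00` for `nodalGood_baseChange`.** -/
theorem J1_le_P00_baseChange [IsDomain R'] [IsDiscreteValuationRing R'] (hπ' : Irreducible π')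
    {κ : Type u} [Field κ]
    (X : ∀ i, Comp ((nodalChart hK).baseChange R')
      ((nodalGood_baseChange D hK hL dvrR dvrR' hld2 halg).P0 i)
      ((nodalGood_baseChange D hK hL dvrR dvrR' hld2 halg).P1 i) κ) :
    Fermat.Agent.T1.RedIface75.J1 (nodalChart hK) R' ≤
      P00 (nodalGood_baseChange D hK hL dvrR dvrR' hld2 halg) X :=
  J1_le_P00 (nodalChart hK) R' _ X
    ((IsDiscreteValuationRing.irreducible_iff_uniformizer π').1 hπ')

end BC

end Fermat.Agent.T1B.NodalCoh30
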