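/-
T1B brick N-COH (helper30), file 10: THE TRANSCENDENCE INPUT `htr` OF `Bal.lean` FOR THE CONCRETE
NODAL MODEL of Program N (`ES/N34/ModelDefs9`: `t = tN q ht`, `O1` the Gauss valuation ring at `∞`,
`O2 = O1.comap W_{N'}` the one at the cusp `0`), at every number field `K`:

* `transMod_chain`  : abstract transport `O₀ → (W₀) → O₀ → (β) → O → (w) → O.comap w`;
* `transMod_O1`     : `TransMod π (O1 M' q hπ hE) (tN q ht)`   (Hauptmodul series `tq`);
* `transMod_O2`     : `TransMod π (O2 M' q hπ hE) (tN q ht)`   (`W_{N'} t = β (W_{M'} t_M)`, the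
                      level-`M'` Fricke isometry `IsoM25.isoM`, `V_q` reflects the Gauss ring);
* `transMod_comp`   : both, in the form `∀ i : Fin 2, TransMod π (comp O1 O2 i) t` consumed by
                      `compSelf`, `compOfEquiv`, `compBaseChange`.
-/
import Mathlib
import Fermat.Agent.T1B.NodalCoh30.Bal
import Fermat.Agent.ES.N34.IsoM25
import Fermat.Agent.ES.N34.YMem11
import Fermat.Agent.ES.N34.CombW5
import Fermat.Agent.ES.N34.BranchInt5
import Fermat.Agent.ES.P36.GaussVThree8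
import Fermat.Agent.RED.DESC.NumberFieldDVR27

set_option autoImplicit false
set_option linter.unusedSectionVars false
set_option synthInstance.maxHeartbeats 400000

noncomputable section

open HahnSeries ModularCurve

namespace Fermat.Agent.T1B.NodalCoh30

open Fermat.Agent.RED.Interface4 Fermat.Agent.RED.PUR.GaussGen8
  Fermat.Agent.RED.PUR.GaussBridge10 Fermat.Agent.RED.BASE.EtaQuot12
  Fermat.Agent.ES.N34.FrickeFK8 Fermat.Agent.ES.N34.ModelDefs9 Fermat.Agent.T1B.NodalFacts23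

section Abstract

variable {R F₀ F : Type*} [CommRing R] [Field F₀] [Field F] [Algebra R F₀] [Algebra R F] {π : R}

/-- The transport chain: from the good level (`O₀`, coordinate `t₀`) through an involution `W₀`
preserving `O₀`, a degeneracy map `β` reflecting integrality, and an endomorphism `w` of the
bad-level field with `w t = β (W₀ t₀)`. -/
theorem transMod_chain {O₀ : ValuationSubring F₀} {O : ValuationSubring F}
    (W₀ : F₀ →+* F₀) (hW₀R : ∀ r : R, W₀ (algebraMap R F₀ r) = algebraMap R F₀ r)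
    (hW₀inv : ∀ x, W₀ (W₀ x) = x) (hiso : ∀ x, x ∈ O₀ ↔ W₀ x ∈ O₀)
    (β : F₀ →+* F) (hβR : ∀ r : R, β (algebraMap R F₀ r) = algebraMap R F r)
    (hπ : algebraMap R F₀ π ≠ 0) (hβ : ∀ x, β x ∈ O → x ∈ O₀)
    (w : F →+* F) (hwR : ∀ r : R, w (algebraMap R F r) = algebraMap R F r)
    {t₀ : F₀} {t : F} (hwt : w t = β (W₀ t₀)) (h : TransMod π O₀ t₀) :
    TransMod π (O.comap w) t := by
  have h1 : TransMod π O₀ (W₀ (W₀ t₀)) := by
    rw [hW₀inv]
    exact h
  have h2 : TransMod π (O₀.comap W₀) (W₀ t₀) := TransMod.comap W₀ hW₀R h1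
  have h3 : O₀.comap W₀ = O₀ := by
    ext x
    exact (hiso x).symm
  rw [h3] at h2
  have h5 : TransMod π O (β (W₀ t₀)) := TransMod.of_ringHom β hβR hπ hβ h2
  rw [← hwt] at h5
  exact TransMod.comap w hwR h5

end Abstract

section Concrete

variable {A : ValuationSubring Qbar} {K : IntermediateField ℚ Qbar} {M' : ℕ} (q : ℕ) [NeZero M']
  [NeZero q] {n e : ℕ} [NeZero n]

attribute [local instance] Fermat.Agent.RED.NumInst4.isScalarTower_OE

/-- The coordinate is transcendental modulo `π` on the component `O1`. -/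
theorem transMod_O1 (ht : tq (↥K) n e ∈ FK M' K) {π : ↥(AK A K)} (hπ : IsUnif (AK A K) π)
    (hE : FK (M' * q) K ≤ fracField (AK A K)) :
    TransMod (R := ↥(AK A K)) (F := ↥(FK (M' * q) K)) π (O1 M' q hπ hE) (tN q ht) :=
  transMod_gaussVS_tq hπ hE n e (coe_tN q ht)

/-- The coordinate is transcendental modulo `π` on the component `O2`. -/
theorem transMod_O2 (hq : q.Prime) (hqM : ¬ q ∣ M') (hA : A.LiesOverPrime q)
    [FiniteDimensional ℚ K] (ht : tq (↥K) n e ∈ FK M' K) {π : ↥(AK A K)}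
    (hπ : IsUnif (AK A K) π) (hE : FK (M' * q) K ≤ fracField (AK A K)) :
    TransMod (R := ↥(AK A K)) (F := ↥(FK (M' * q) K)) π (O2 M' q hπ hE) (tN q ht) := by
  have hdvr : IsDiscreteValuationRing ↥(AK A K) :=
    Fermat.Agent.RED.DESC.NumberFieldDVR27.isDiscreteValuationRing_AK A K hq.ne_zero hA
  have hirr : Irreducible π := (IsDiscreteValuationRing.irreducible_iff_uniformizer π).mpr hπ.max_eq
  have : Fact q.Prime := ⟨hq⟩
  have : CharP (Res (AK A K)) q :=
    Fermat.Agent.RED.DESC.NumberFieldDVR27.charP_residueField_AK A K hq hA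
  have hEM : FK M' K ≤ fracField (AK A K) := FK_le_fracField A K M'
  have h0 : TransMod (R := ↥(AK A K)) (F := ↥(FK M' K)) π (gaussVS hπ (FK M' K) hEM) (tM ht) :=
    transMod_gaussVS_tq hπ hEM n e (coe_tM ht)
  have hRM : ∀ r : ↥(AK A K), algebraMap ↥(AK A K) ↥(FK M' K) r =
      algebraMap ↥K ↥(FK M' K) ((r : ↥(AK A K)) : ↥K) := fun _ => rfl
  have hRN : ∀ r : ↥(AK A K), algebraMap ↥(AK A K) ↥(FK (M' * q) K) r =
      algebraMap ↥K ↥(FK (M' * q) K) ((r : ↥(AK A K)) : ↥K) := fun _ => rfl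
  have hπ0 : algebraMap ↥(AK A K) ↥(FK M' K) π ≠ 0 := by
    rw [hRM]
    intro h
    have h1 := (map_eq_zero (algebraMap ↥K ↥(FK M' K))).1 h
    exact hirr.ne_zero (Subtype.ext h1)
  refine transMod_chain (O₀ := gaussVS hπ (FK M' K) hEM) (O := O1 M' q hπ hE)
    ((frickeFK M' K : FK M' K →ₐ[K] FK M' K) : FK M' K →+* FK M' K) ?_ ?_ ?_
    ((beta K M' q : FK M' K →ₐ[K] FK (M' * q) K) : FK M' K →+* FK (M' * q) K) ?_ hπ0 ?_
    (wN K M' q).toRingHom ?_ (t₀ := tM ht) ?_ h0
  · intro r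
    rw [hRM]
    exact (frickeFK M' K).commutes _
  · intro x
    exact frickeFK_frickeFK M' K x
  · intro x
    exact Fermat.Agent.ES.N34.IsoM25.isoM A K M' q hirr hqM x
  · intro r
    rw [hRM, hRN]
    exact (beta K M' q).commutes _
  · intro x hx
    have h1 : qExpand (↥K) q (x : LaurentSeries ↥K) ∈ gaussRing (AK A K) :=
      (Fermat.Agent.ES.N34.BranchInt5.beta_mem_O1_iff_qExpand M' q hπ hE x).1 hx
    exact (Fermat.Agent.ES.P36.GaussVThree8.qExpand_mem_gaussRing_iff hπ q (hEM x.2)).1 h1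
  · intro r
    exact Fermat.Agent.ES.N34.CombW5.wN_algebraMap_AK M' q r
  · exact Fermat.Agent.ES.N34.YMem11.wN_tN q ht

/-- Both components, in the form consumed by `compSelf` / `compOfEquiv` / `compBaseChange`. -/
theorem transMod_comp (hq : q.Prime) (hqM : ¬ q ∣ M') (hA : A.LiesOverPrime q)
    [FiniteDimensional ℚ K] (ht : tq (↥K) n e ∈ FK M' K) {π : ↥(AK A K)}
    (hπ : IsUnif (AK A K) π) (hE : FK (M' * q) K ≤ fracField (AK A K)) (i : Fin 2) :
    TransMod (R := ↥(AK A K)) (F := ↥(FK (M' * q) K)) π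
      (comp (O1 M' q hπ hE) (O2 M' q hπ hE) i) (tN q ht) := by
  fin_cases i
  · exact transMod_O1 q ht hπ hE
  · exact transMod_O2 q hq hqM hA ht hπ hE

end Concrete

end Fermat.Agent.T1B.NodalCoh30
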