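/-
T1B brick N-COH (helper30), file 11: THE HYPOTHESIS `fin1` OF `Bal.lean` / `Coh60.ModelLine`
("`B1` is a finite `R[t⁻¹]`-module") for the concrete nodal model of Program N, at every number
field `K`.  (`NodalTwoChartModel` only records `fin0`; the chart-`1` twin comes from the same
`ChartGeneric22.chart_facts`.)

* `chart_inv_generators` : abstract (`R` integrally closed noetherian domain, `F / K(t)` finite);
* `fin1_gauss`           : Gauss form, twin of `ChartN26.chartInputs_gauss`;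
* `fin1_at`              : for `B1 A q ht = chart (AK A K) (tN q ht)⁻¹`, twin of
                           `ModelQAt4.chartItems_at`; `fin1_four_at`, `fin1_nine_at`.
-/
import Mathlib
import Fermat.Agent.ES.P36.ModelQAt4

set_option autoImplicit false
set_option synthInstance.maxHeartbeats 400000
set_option linter.unusedSectionVars false

noncomputable section

open HahnSeries ModularCurve IntermediateField Polynomial

namespace Fermat.Agent.T1B.NodalCoh30

open Fermat.Agent.RED.Interface4 Fermat.Agent.RED.PUR.GaussGen8 Fermat.Agent.RED.PUR.KtGauss8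
  Fermat.Agent.RED.PUR.G1Package8 Fermat.Agent.RED.NumInst4 Fermat.Agent.RED.ModelAsm4
  Fermat.Agent.RED.PUR.ChartGeneric22 Fermat.Agent.RED.BASE.Interface12
  Fermat.Agent.RED.BASE.EtaQuot12 Fermat.Agent.ES.N34.ModelDefs9 Fermat.Agent.ES.P36.CoeffField4

section Abstract

variable {R K F : Type*} [CommRing R] [IsDomain R] [Field K] [Field F] [Algebra R K] [Algebra K F]
  [Algebra R F] [IsScalarTower R K F] [IsFractionRing R K] [IsNoetherianRing R]
  [IsIntegrallyClosed R] [CharZero K]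

/-- The chart `chart R t⁻¹` is a finite `R[t⁻¹]`-module, with explicit generators. -/
theorem chart_inv_generators {t : F} [FiniteDimensional (IntermediateField.adjoin K {t}) F]
    (htr : Transcendental K t) :
    ∃ (r : ℕ) (e : Fin r → F), (∀ i, e i ∈ chart R t⁻¹) ∧
      ∀ x ∈ chart R t⁻¹, ∃ P : Fin r → R[X], x = ∑ i, aeval t⁻¹ (P i) * e i := by
  have hmem : t ∈ IntermediateField.adjoin K {t} := IntermediateField.mem_adjoin_simple_self K t
  have hinv_mem : t⁻¹ ∈ IntermediateField.adjoin K {t} := inv_mem hmem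
  have hE' : IntermediateField.adjoin K {t} ≤ IntermediateField.adjoin K {t⁻¹} := by
    rw [IntermediateField.adjoin_le_iff, Set.singleton_subset_iff]
    have h1 : t⁻¹ ∈ IntermediateField.adjoin K {t⁻¹} :=
      IntermediateField.mem_adjoin_simple_self K t⁻¹
    have h2 := inv_mem h1
    rwa [inv_inv] at h2
  have htr' : Transcendental K t⁻¹ := fun h => htr (IsAlgebraic.inv_iff.1 h)
  exact (chart_facts (R := R) (IntermediateField.adjoin K {t}) hinv_mem hE' htr').2.2

end Abstract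

section Gauss

variable {K : Type*} [Field K] {O : ValuationSubring K} [IsDiscreteValuationRing ↥O]
  {E : IntermediateField K (LaurentSeries K)}

/-- `fin1`, Gauss form (twin of `ChartN26.chartInputs_gauss`). -/
theorem fin1_gauss [CharZero K] {π : ↥O} (hπ : Irreducible π) (t : ↥E)
    (ht : (t : LaurentSeries K) ∈ gaussRing O)
    (htr : Transcendental (Res O) (gaussRed O ⟨(t : LaurentSeries K), ht⟩))
    (hn : relfinrank (Kt O ⟨(t : LaurentSeries K), ht⟩) E ≠ 0) :
    ∃ (r : ℕ) (e : Fin r → ↥E), (∀ i, e i ∈ chart ↥O t⁻¹) ∧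
      ∀ x ∈ chart ↥O t⁻¹, ∃ P : Fin r → (↥O)[X], x = ∑ i, aeval t⁻¹ (P i) * e i := by
  have : IsScalarTower ↥O K ↥E := isScalarTower_OE O E
  have : FiniteDimensional ↥(IntermediateField.adjoin K {t}) ↥E := finiteDimensional_adjoin t hn
  have htrK : Transcendental K t :=
    transcendental_of_coe t (transcendental_t (tG := ⟨(t : LaurentSeries K), ht⟩) hπ htr)
  exact chart_inv_generators (R := ↥O) (K := K) (F := ↥E) htrK

end Gauss

section Concrete

variable {n e q M' : ℕ} [NeZero n] [NeZero M'] [NeZero q] {A : ValuationSubring Qbar}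
  {K : IntermediateField ℚ Qbar}

/-- **`fin1` at one `K`** (every number field): `B1` is a finite `R[t⁻¹]`-module. -/
theorem fin1_at (hq : q.Prime) (hA : A.LiesOverPrime q) (hgen : TGenBase n e)
    [FiniteDimensional ℚ K] (htM : tq (↥K) n e ∈ FK M' K) {ϖ : ↥(AK A K)} (hϖ : Irreducible ϖ) :
    ∃ (r : ℕ) (b : Fin r → ↥(FK (M' * q) K)), (∀ i, b i ∈ B1 A q htM) ∧
      ∀ x ∈ B1 A q htM, ∃ P : Fin r → (↥(AK A K))[X],
        x = ∑ i, aeval (tN q htM)⁻¹ (P i) * b i := by
  have hdvr : IsDiscreteValuationRing ↥(AK A K) :=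
    Fermat.Agent.RED.DESC.NumberFieldDVR27.isDiscreteValuationRing_AK A K hq.ne_zero hA
  have htq : ((tN q htM : ↥(FK (M' * q) K)) : LaurentSeries K) = tq (↥K) n e := coe_tN q htM
  have ht : ((tN q htM : ↥(FK (M' * q) K)) : LaurentSeries K) ∈ gaussRing (AK A K) := by
    rw [htq]; exact Fermat.Agent.RED.ModelTargets4.tq_mem_gaussRing (AK A K) n e
  have h1 : (⟨((tN q htM : ↥(FK (M' * q) K)) : LaurentSeries K), ht⟩ : ↥(gaussRing (AK A K))) =
      ⟨tq (↥K) n e, Fermat.Agent.RED.ModelTargets4.tq_mem_gaussRing (AK A K) n e⟩ :=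
    Subtype.ext htq
  have htr : Transcendental (Res (AK A K))
      (gaussRed (AK A K) ⟨((tN q htM : ↥(FK (M' * q) K)) : LaurentSeries K), ht⟩) := by
    rw [h1]
    exact Fermat.Agent.RED.ModelTargets4.transcendental_gaussRed_tq (AK A K) n e
  have hjt : jqModC K ∈ Kt (AK A K) ⟨((tN q htM : ↥(FK (M' * q) K)) : LaurentSeries K), ht⟩ := by
    rw [h1]
    exact j_mem_adjoin n e hgen K
  have : NeZero (M' * q) := ⟨Nat.mul_ne_zero (NeZero.ne M') (NeZero.ne q)⟩
  have hn : relfinrank (Kt (AK A K) ⟨((tN q htM : ↥(FK (M' * q) K)) : LaurentSeries K), ht⟩)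
      (FK (M' * q) K) ≠ 0 :=
    Fermat.Agent.RED.ModelMain4.relfinrank_ne_zero (AK A K) (M' * q) _ (tN q htM).2 hjt
  exact fin1_gauss hϖ (tN q htM) ht htr hn

/-- `fin1` for the Hauptmodul `tq · 4 8`. -/
theorem fin1_four_at (hq : q.Prime) (hA : A.LiesOverPrime q) [FiniteDimensional ℚ K]
    (htM : tq (↥K) 4 8 ∈ FK M' K) {ϖ : ↥(AK A K)} (hϖ : Irreducible ϖ) :
    ∃ (r : ℕ) (b : Fin r → ↥(FK (M' * q) K)), (∀ i, b i ∈ B1 A q htM) ∧
      ∀ x ∈ B1 A q htM, ∃ P : Fin r → (↥(AK A K))[X],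
        x = ∑ i, aeval (tN q htM)⁻¹ (P i) * b i :=
  fin1_at hq hA (Fermat.Agent.RED.BASE.Main12.baseExports_four 4 dvd_rfl).genBase htM hϖ

/-- `fin1` for the Hauptmodul `tq · 9 3`. -/
theorem fin1_nine_at (hq : q.Prime) (hA : A.LiesOverPrime q) [FiniteDimensional ℚ K]
    (htM : tq (↥K) 9 3 ∈ FK M' K) {ϖ : ↥(AK A K)} (hϖ : Irreducible ϖ) :
    ∃ (r : ℕ) (b : Fin r → ↥(FK (M' * q) K)), (∀ i, b i ∈ B1 A q htM) ∧
      ∀ x ∈ B1 A q htM, ∃ P : Fin r → (↥(AK A K))[X],
        x = ∑ i, aeval (tN q htM)⁻¹ (P i) * b i :=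
  fin1_at hq hA (Fermat.Agent.RED.BASE.Main12.baseExports_nine 9 dvd_rfl).genBase htM hϖ

end Concrete

end Fermat.Agent.T1B.NodalCoh30
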