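/-
T1B brick N-COH (helper30), file 12: **F4 AT THE NUMBER-FIELD LEVEL, ONE-STOP**.

For number fields `K ≤ L ⊆ ℚbar`, `W = AK A K`, `O = AK A L`, the fixed nodal hub chart
`c0 = nodalChart hK.model` over `W` and helper23's
`hg = NodalNFEquiv.nodalGood_numField .. hK hL : NodalGood (c0.baseChange O) π' (Fin 2)`:

* `connected_numField`       : the dual graph is connected (`meet_of_numData hL`);
* `compNumField`             : the two components over the residue field of `O`
                               (`fin1_at`, `transMod_comp`: no hypothesis left);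
* `balanced_numField`        : `RedN3.Balanced c0 O hg (P00 hg (compNumField ..))`;
* `h0Const_numField`         : `H⁰(O_{X_O}) = O` (`concrete_h0Const`);
* `extInjective00_numField`  : `RedN3.ExtInjective00 c0 O Lf (P00 ..)`, `Lf` a fraction field of `O`;
* `J1_le_P00_numField`.

Inputs: `hK hL : NodalNumData` (`ES/P36 ModelQAt4.nodalNumData_at` / `ModelInert4`), `q` prime,
`q ∤ M'`, `A` over `q`, `TGenBase n e`.
-/
import Mathlib
import Fermat.Agent.T1B.NodalBC23.NodalNFEquiv
import Fermat.Agent.T1B.NodalCoh30.Bal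
import Fermat.Agent.T1B.NodalCoh30.BalConcrete
import Fermat.Agent.T1B.NodalCoh30.Fin1
import Fermat.Agent.T1B.NodalCoh30.Concrete

set_option autoImplicit false
set_option linter.unusedSectionVars false
set_option linter.style.haveILetI false
set_option synthInstance.maxHeartbeats 400000

noncomputable section

namespace Fermat.Agent.T1B.NodalCoh30

open TensorProduct HahnSeries ModularCurve IntermediateField
open Fermat.Agent.RED.Interface4 Fermat.Agent.RED.PUR.GaussGen8
open Fermat.Agent.RED.BASE.EtaQuot12 Fermat.Agent.RED.BASE.Interface12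
open Fermat.Agent.ES.N34.ModelDefs9 Fermat.Agent.ES.N34.NumData13 Fermat.Agent.ES.N34.NodalCore13
open Fermat.Agent.T1.ModelBC51.Abstract
open Fermat.Agent.T1.HubInst98
open Fermat.Agent.T1B.RedN3 Fermat.Agent.T1B.NodalFacts23 Fermat.Agent.T1B.Bal60
open Fermat.Agent.T1B.NodalBC23.Abstract Fermat.Agent.T1B.NodalBC23.NumField
open Fermat.Agent.T1B.NodalBC23.Model Fermat.Agent.T1B.NodalBC23.Good
open Fermat.Agent.T1B.NodalBC23.NodalNF Fermat.Agent.T1B.NodalBC23.NodalNFEquiv
open Fermat.Agent.Jac Fermat.Agent.Jac.BaseChange75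
open scoped Fermat.Agent.Jac.BaseChange75
open Fermat.Agent.T1.Coh60 (algebra0 algebra1 isScalarTower0 isScalarTower1)

/-! ### Local shortcut instances (instance search at `↥(AK A K)`, `↥(FK N K)` is slow) -/

local instance (priority := high) scAlgKF30 (K : IntermediateField ℚ Qbar) (N : ℕ) [NeZero N] :
    Algebra ↥K ↥(FK N K) := inferInstance

local instance (priority := high) scAlgAK30 (A : ValuationSubring Qbar)
    (K : IntermediateField ℚ Qbar) : Algebra ↥(AK A K) ↥K := inferInstance

local instance (priority := high) scAlgAF30 (A : ValuationSubring Qbar)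
    (K : IntermediateField ℚ Qbar) (N : ℕ) [NeZero N] : Algebra ↥(AK A K) ↥(FK N K) :=
  inferInstance

local instance (priority := high) scTower30 (A : ValuationSubring Qbar)
    (K : IntermediateField ℚ Qbar) (N : ℕ) [NeZero N] :
    IsScalarTower ↥(AK A K) ↥K ↥(FK N K) := inferInstance

variable (A : ValuationSubring Qbar) {K L : IntermediateField ℚ Qbar} (h : K ≤ L)
  (M' q : ℕ) [NeZero M'] [NeZero q] {n e : ℕ} [NeZero n]
  (hq : q.Prime) (hqM : ¬ q ∣ M') (hA : A.LiesOverPrime q)
  [FiniteDimensional ℚ K] [FiniteDimensional ℚ L] (hgen : TGenBase n e)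
  {π : ↥(AK A K)} {π' : ↥(AK A L)} (hπ : IsUnif (AK A K) π) (hπ' : IsUnif (AK A L) π')
  (hE : FK (M' * q) K ≤ fracField (AK A K)) (hE' : FK (M' * q) L ≤ fracField (AK A L))
  (htK : tq ↥K n e ∈ FK M' K) (htL : tq ↥L n e ∈ FK M' L)
  (hK : NodalNumData ↥(AK A K) ↥K ↥(FK (M' * q) K) π (tN q htK) (B0 A q htK) (B1 A q htK)
    (O1 M' q hπ hE) (O2 M' q hπ hE))
  (hL : NodalNumData ↥(AK A L) ↥L ↥(FK (M' * q) L) π' (tN q htL) (B0 A q htL) (B1 A q htL)
    (O1 M' q hπ' hE') (O2 M' q hπ' hE'))

attribute [local instance] algebra0 algebra1 isScalarTower0 isScalarTower1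

/-- **The dual graph of the special fibre of the hub over `AK A L` is connected.** -/
theorem connected_numField :
    letI := algAK A h
    Connected (nodalGood_numField A h M' q hq.ne_zero hA hπ hπ' hE hE' htK htL hK hL) :=
  letI := algAK A h
  connected_baseChange (bcD A h M' q hq.ne_zero hA hπ hπ' hE hE') hK.model
    (modelL A h M' q hq.ne_zero hA hπ hπ' hE hE' htK htL hL) hK.dvrR hL.dvrR
    (ld2 A h M' q hq.ne_zero hA hπ hπ' hE hE') (halg A h M' q hq.ne_zero hA hπ hπ' hE hE')
    (meet_of_numData hL)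

include hq hqM hA htL in
/-- the transcendence input over `L`, for the coordinate written as `iF t`. -/
theorem transMod_numField (i : Fin 2) :
    TransMod (R := ↥(AK A L)) (F := ↥(FK (M' * q) L)) π'
      (comp (O1 M' q hπ' hE') (O2 M' q hπ' hE') i)
      ((bcD A h M' q hq.ne_zero hA hπ hπ' hE hE').iF (tN q htK)) := by
  rw [bcD_iF_tN A h M' q hq.ne_zero hA hπ hπ' hE hE' htK htL]
  exact transMod_comp q hq hqM hA htL hπ' hE' i

/-- `π` is irreducible in `AK A K`. -/
theorem irreducible_of_isUnif {K : IntermediateField ℚ Qbar} [FiniteDimensional ℚ K]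
    (hq : q.Prime) (hA : A.LiesOverPrime q) {π : ↥(AK A K)} (hπ : IsUnif (AK A K) π) :
    Irreducible π :=
  haveI : IsDiscreteValuationRing ↥(AK A K) :=
    Fermat.Agent.RED.DESC.NumberFieldDVR27.isDiscreteValuationRing_AK A K hq.ne_zero hA
  (IsDiscreteValuationRing.irreducible_iff_uniformizer π).mpr hπ.max_eq

/-- **The components of the special fibre of the hub over `AK A L`**, over the residue field. -/
def compNumField (i : Fin 2) :
    letI := algAK A h
    haveI : IsDiscreteValuationRing ↥(AK A L) :=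
      Fermat.Agent.RED.DESC.NumberFieldDVR27.isDiscreteValuationRing_AK A L hq.ne_zero hA
    Comp ((nodalChart hK.model).baseChange ↥(AK A L))
      ((nodalGood_numField A h M' q hq.ne_zero hA hπ hπ' hE hE' htK htL hK hL).P0 i)
      ((nodalGood_numField A h M' q hq.ne_zero hA hπ hπ' hE hE' htK htL hK hL).P1 i)
      (IsLocalRing.ResidueField ↥(AK A L)) :=
  letI := algAK A h
  haveI : IsDiscreteValuationRing ↥(AK A L) :=
    Fermat.Agent.RED.DESC.NumberFieldDVR27.isDiscreteValuationRing_AK A L hq.ne_zero hA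
  compBaseChangeRes (bcD A h M' q hq.ne_zero hA hπ hπ' hE hE') hK.model
    (modelL A h M' q hq.ne_zero hA hπ hπ' hE hE' htK htL hL) hK.dvrR hL.dvrR
    (ld2 A h M' q hq.ne_zero hA hπ hπ' hE hE') (halg A h M' q hq.ne_zero hA hπ hπ' hE hE')
    (irreducible_of_isUnif A q hq hA hπ')
    (fin1_at hq hA hgen htK (irreducible_of_isUnif A q hq hA hπ))
    (transMod_numField A h M' q hq hqM hA hπ hπ' hE hE' htK htL) i

/-- **F4-d at the number-field level**: the multidegree-zero subgroup is balanced. -/
theorem balanced_numField :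
    letI := algAK A h
    haveI : IsDiscreteValuationRing ↥(AK A L) :=
      Fermat.Agent.RED.DESC.NumberFieldDVR27.isDiscreteValuationRing_AK A L hq.ne_zero hA
    Balanced (nodalChart hK.model) ↥(AK A L)
      (nodalGood_numField A h M' q hq.ne_zero hA hπ hπ' hE hE' htK htL hK hL)
      (P00 (nodalGood_numField A h M' q hq.ne_zero hA hπ hπ' hE hE' htK htL hK hL)
        (compNumField A h M' q hq hqM hA hgen hπ hπ' hE hE' htK htL hK hL)) :=
  letI := algAK A h
  balanced (nodalChart hK.model) ↥(AK A L) _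
    (connected_numField A h M' q hq hA hπ hπ' hE hE' htK htL hK hL) _

/-- **`H⁰(O_{X_O}) = O`** for the hub over `O = AK A L`. -/
theorem h0Const_numField :
    letI := algAK A h
    Fermat.Agent.T1.Red68.H0Const ((nodalChart hK.model).baseChange ↥(AK A L)) :=
  letI := algAK A h
  concrete_h0Const hπ hE hK ↥(AK A L)

/-- **`ExtInjective00` at the number-field level**: `P00 → Pic X_{Lf}` is injective, `Lf` a fraction
field of `AK A L` (e.g. `↥L`). -/
theorem extInjective00_numField (Lf : Type) [Field Lf] [Algebra ↥(AK A K) Lf]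
    [Algebra ↥(AK A L) Lf]
    (htower : letI := algAK A h; IsScalarTower ↥(AK A K) ↥(AK A L) Lf)
    [IsFractionRing ↥(AK A L) Lf] :
    letI := algAK A h
    haveI : IsDiscreteValuationRing ↥(AK A L) :=
      Fermat.Agent.RED.DESC.NumberFieldDVR27.isDiscreteValuationRing_AK A L hq.ne_zero hA
    ExtInjective00 (nodalChart hK.model) ↥(AK A L) Lf
      (P00 (nodalGood_numField A h M' q hq.ne_zero hA hπ hπ' hE hE' htK htL hK hL)
        (compNumField A h M' q hq hqM hA hgen hπ hπ' hE hE' htK htL hK hL)) :=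
  letI := algAK A h
  haveI : IsDiscreteValuationRing ↥(AK A L) :=
    Fermat.Agent.RED.DESC.NumberFieldDVR27.isDiscreteValuationRing_AK A L hq.ne_zero hA
  haveI := htower
  extInjective00 (nodalChart hK.model) ↥(AK A L) Lf (irreducible_of_isUnif A q hq hA hπ') _
    (h0Const_numField A h M' q hπ hE htK hK) _
    (balanced_numField A h M' q hq hqM hA hgen hπ hπ' hE hE' htK htL hK hL)

/-- **`J¹ ≤ P00` at the number-field level.** -/
theorem J1_le_P00_numField :
    letI := algAK A h
    haveI : IsDiscreteValuationRing ↥(AK A L) :=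
      Fermat.Agent.RED.DESC.NumberFieldDVR27.isDiscreteValuationRing_AK A L hq.ne_zero hA
    Fermat.Agent.T1.RedIface75.J1 (nodalChart hK.model) ↥(AK A L) ≤
      P00 (nodalGood_numField A h M' q hq.ne_zero hA hπ hπ' hE hE' htK htL hK hL)
        (compNumField A h M' q hq hqM hA hgen hπ hπ' hE hE' htK htL hK hL) :=
  letI := algAK A h
  haveI : IsDiscreteValuationRing ↥(AK A L) :=
    Fermat.Agent.RED.DESC.NumberFieldDVR27.isDiscreteValuationRing_AK A L hq.ne_zero hA
  J1_le_P00 (nodalChart hK.model) ↥(AK A L) _ _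
    ((IsDiscreteValuationRing.irreducible_iff_uniformizer π').1
      (irreducible_of_isUnif A q hq hA hπ'))

end Fermat.Agent.T1B.NodalCoh30
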