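/-
T1B brick N-COH (helper30), file 8: the UNCONDITIONAL statements for a nodal model whose two
vertical valuation rings are a Gauss valuation ring `O1 = gaussVS hϖ E hE` and its transport
`O2 = O1.comap w` along an involution `w` of `E` fixing the constants — stated for GENERIC
`Kt`, `O'`, `E` (fast instance search).  `ES/N34/ModelDefs9` is the instance
`w = (wN K M' q).toRingHom` (`Concrete.lean` restates this at the number-field types, which is slow
to elaborate: consumers should apply the theorems below directly).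
-/
import Mathlib
import Fermat.Agent.T1B.NodalCoh30.NumData

set_option autoImplicit false
set_option linter.unusedSectionVars false

noncomputable section

universe u

namespace Fermat.Agent.T1B.NodalCoh30

open HahnSeries Fermat.Agent.RED.PUR.GaussGen8 Fermat.Agent.T1.ModelCoh30
  Fermat.Agent.ES.N34.NumData13 Fermat.Agent.T1.Coh60 Fermat.Agent.T1B.NodalFacts23
  Fermat.Agent.Jac Fermat.Agent.Jac.BaseChange75
open scoped Fermat.Agent.Jac.BaseChange75

variable {Kt : Type} [Field Kt] {O' : ValuationSubring Kt}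
  {E : IntermediateField Kt (LaurentSeries Kt)}

attribute [local instance] Fermat.Agent.RED.NumInst4.isScalarTower_OE

theorem resAlgClosed_gaussVS_comap {ϖ : O'} (hϖ : IsUnif O' ϖ) (hE : E ≤ fracField O')
    (w : ↥E →+* ↥E) (hw : ∀ x, w (w x) = x)
    (hwK : ∀ c : Kt, w (algebraMap Kt ↥E c) = algebraMap Kt ↥E c) :
    ResAlgClosed (R := ↥O') (F := ↥E) ϖ ((gaussVS hϖ E hE).comap w) := by
  refine resAlgClosed_comap_involution w hw ?_ (resAlgClosed_gaussVS' hϖ hE)
  intro r
  have h1 : algebraMap ↥O' ↥E r = algebraMap Kt ↥E (algebraMap ↥O' Kt r) :=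
    IsScalarTower.algebraMap_apply _ _ _ r
  rw [h1]
  exact hwK _

/-- the Čech datum, unconditional. -/
def gaussCechData {ϖ : O'} (hϖ : IsUnif O' ϖ) (hE : E ≤ fracField O')
    (w : ↥E →+* ↥E) (hw : ∀ x, w (w x) = x)
    (hwK : ∀ c : Kt, w (algebraMap Kt ↥E c) = algebraMap Kt ↥E c)
    {t : ↥E} {B0 B1 : Subalgebra ↥O' ↥E}
    (D : NodalNumData ↥O' Kt ↥E ϖ t B0 B1 (gaussVS hϖ E hE) ((gaussVS hϖ E hE).comap w)) :
    Fermat.Agent.T1.CechFormal70.CechData ↥O' ↥B0 ↥B1 ↥(B0 ⊔ B1)
      ((cohDatum_of_numData D).genus (specialH0_of_numData D (resAlgClosed_gaussVS' hϖ hE)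
        (resAlgClosed_gaussVS_comap hϖ hE w hw hwK))) :=
  cechData_of_numData D (resAlgClosed_gaussVS' hϖ hE) (resAlgClosed_gaussVS_comap hϖ hE w hw hwK)

/-- `H⁰(O_{X_{R'}}) = R'` for the nodal hub chart, unconditional. -/
theorem gauss_h0Const {ϖ : O'} (hϖ : IsUnif O' ϖ) (hE : E ≤ fracField O')
    (w : ↥E →+* ↥E) (hw : ∀ x, w (w x) = x)
    (hwK : ∀ c : Kt, w (algebraMap Kt ↥E c) = algebraMap Kt ↥E c)
    {t : ↥E} {B0 B1 : Subalgebra ↥O' ↥E}
    (D : NodalNumData ↥O' Kt ↥E ϖ t B0 B1 (gaussVS hϖ E hE) ((gaussVS hϖ E hE).comap w))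
    (R' : Type) [CommRing R'] [Algebra ↥O' R'] :
    letI := algebra0 B0 B1
    letI := algebra1 B0 B1
    haveI := isScalarTower0 B0 B1
    haveI := isScalarTower1 B0 B1
    Fermat.Agent.T1.Red68.H0Const ((nodalChart D.model).baseChange R') :=
  h0Const_of_numData D (resAlgClosed_gaussVS' hϖ hE)
    (resAlgClosed_gaussVS_comap hϖ hE w hw hwK) R'

end Fermat.Agent.T1B.NodalCoh30
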